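import Mathlib
import Fermat.Agent.S25.DefsAlg
import Fermat.Agent.S25.H250.AdapterProj
import Fermat.Agent.S25.H250.ChartAlg
import Fermat.Agent.S25.H567.TensorDomain

/-!
# S25 / DEGREE (helper565): a curve chart base-changed to a field

For `hC : IsCurveChart k B₀ B₁ B₀₁ x y e`, `k` algebraically closed and a field `K ⊇ k`, the
cospan `K ⊗ B₀ → K ⊗ B₀₁ ← K ⊗ B₁` satisfies the hypotheses of `H565/Section.lean`:
domains, `K ⊗ B₀₁` nontrivial, localizations away from `1 ⊗ x`, `1 ⊗ y`, finiteness over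
`K[1 ⊗ x]`, `K[1 ⊗ y]`.
-/

set_option autoImplicit false
set_option linter.style.haveILetI false
set_option linter.unusedSectionVars false

namespace Fermat.Agent.S25.H565

open Fermat.Agent.S25 Polynomial
open scoped TensorProduct

universe u

section FiniteTensor

variable {k : Type u} [Field k] {B : Type u} [CommRing B] [Algebra k B]

/-- Finiteness over the polynomial ring is stable under base change of the ground field. -/
theorem aeval_tensor_finite (x : B) (hfin : (Polynomial.aeval x : k[X] →ₐ[k] B).Finite)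
    (K : Type u) [Field K] [Algebra k K] :
    (Polynomial.aeval ((1 : K) ⊗ₜ[k] x) : K[X] →ₐ[K] K ⊗[k] B).Finite := by
  classical
  -- generators of `B` over `k[x]`
  have hB : ∃ S : Finset B, ∀ b : B, ∃ p : B → k[X],
      b = ∑ e ∈ S, Polynomial.aeval x (p e) * e := by
    letI : Algebra k[X] B := (Polynomial.aeval x : k[X] →ₐ[k] B).toRingHom.toAlgebra
    have h1 : Module.Finite k[X] B := hfin
    obtain ⟨S, hS⟩ := h1.fg_top
    refine ⟨S, fun b => ?_⟩
    have hb : b ∈ Submodule.span k[X] (S : Set B) := by rw [hS]; trivial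
    obtain ⟨p, -, hp⟩ := Submodule.mem_span_finset.mp hb
    exact ⟨p, hp.symm⟩
  obtain ⟨S, hS⟩ := hB
  letI : Algebra K[X] (K ⊗[k] B) :=
    (Polynomial.aeval ((1 : K) ⊗ₜ[k] x) : K[X] →ₐ[K] K ⊗[k] B).toRingHom.toAlgebra
  show Module.Finite K[X] (K ⊗[k] B)
  have hsmul : ∀ (q : K[X]) (z : K ⊗[k] B),
      q • z = Polynomial.aeval ((1 : K) ⊗ₜ[k] x) q * z := fun q z => by
    rw [Algebra.smul_def, RingHom.algebraMap_toAlgebra]; rfl
  have hev : ∀ (c : K) (p : k[X]),
      Polynomial.aeval ((1 : K) ⊗ₜ[k] x) (Polynomial.C c * p.map (algebraMap k K)) =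
        c ⊗ₜ[k] Polynomial.aeval x p := by
    intro c p
    rw [map_mul, Polynomial.aeval_C, Polynomial.aeval_map_algebraMap]
    have h1 : Polynomial.aeval ((1 : K) ⊗ₜ[k] x) p =
        (Algebra.TensorProduct.includeRight : B →ₐ[k] K ⊗[k] B) (Polynomial.aeval x p) := by
      rw [← Polynomial.aeval_algHom_apply]
      rfl
    rw [h1, Algebra.TensorProduct.algebraMap_apply, Algebra.TensorProduct.includeRight_apply,
      Algebra.TensorProduct.tmul_mul_tmul, mul_one, one_mul]
    rfl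
  refine Module.finite_def.2 ⟨S.image (fun e => (1 : K) ⊗ₜ[k] e), ?_⟩
  rw [eq_top_iff]
  rintro z -
  induction z using TensorProduct.induction_on with
  | zero => exact Submodule.zero_mem _
  | add a b ha hb => exact Submodule.add_mem _ ha hb
  | tmul c b =>
    obtain ⟨p, hp⟩ := hS b
    have h1 : c ⊗ₜ[k] b = ∑ e ∈ S,
        (Polynomial.C c * (p e).map (algebraMap k K)) • ((1 : K) ⊗ₜ[k] e) := by
      conv_lhs => rw [hp]
      rw [TensorProduct.tmul_sum]
      refine Finset.sum_congr rfl fun e _ => ?_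
      rw [hsmul, hev, Algebra.TensorProduct.tmul_mul_tmul, mul_one]
    rw [h1]
    refine Submodule.sum_mem _ fun e he => Submodule.smul_mem _ _ (Submodule.subset_span ?_)
    rw [Finset.coe_image]
    exact ⟨e, he, rfl⟩

end FiniteTensor

section Chart

variable {k : Type u} [Field k] {B₀ B₁ B₀₁ : Type u} [CommRing B₀] [CommRing B₁] [CommRing B₀₁]
  [Algebra k B₀] [Algebra k B₁] [Algebra k B₀₁] [Algebra B₀ B₀₁] [Algebra B₁ B₀₁]
  [IsScalarTower k B₀ B₀₁] [IsScalarTower k B₁ B₀₁]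
  {x : B₀} {y : B₁} {e : B₁ →ₐ[k] k}

theorem chart_away₀ (hC : IsCurveChart k B₀ B₁ B₀₁ x y e) (K : Type u) [Field K]
    [Algebra k K] :
    IsLocalization.Away ((1 : K) ⊗ₜ[k] x : K ⊗[k] B₀) (K ⊗[k] B₀₁) := by
  haveI := hC.away₀
  exact H250.isLocalization_away_tensor B₀ B₀₁ x

theorem chart_away₁ (hC : IsCurveChart k B₀ B₁ B₀₁ x y e) (K : Type u) [Field K]
    [Algebra k K] :
    IsLocalization.Away ((1 : K) ⊗ₜ[k] y : K ⊗[k] B₁) (K ⊗[k] B₀₁) := by
  haveI := hC.away₁
  exact H250.isLocalization_away_tensor B₁ B₀₁ y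

theorem chart_finite₀ (hC : IsCurveChart k B₀ B₁ B₀₁ x y e) (K : Type u) [Field K]
    [Algebra k K] :
    (Polynomial.aeval ((1 : K) ⊗ₜ[k] x) : K[X] →ₐ[K] K ⊗[k] B₀).Finite :=
  aeval_tensor_finite x hC.finite₀ K

theorem chart_finite₁ (hC : IsCurveChart k B₀ B₁ B₀₁ x y e) (K : Type u) [Field K]
    [Algebra k K] :
    (Polynomial.aeval ((1 : K) ⊗ₜ[k] y) : K[X] →ₐ[K] K ⊗[k] B₁).Finite :=
  aeval_tensor_finite y hC.finite₁ K

theorem chart_nontrivial₀₁ (hC : IsCurveChart k B₀ B₁ B₀₁ x y e) (K : Type u) [Field K]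
    [Algebra k K] : Nontrivial (K ⊗[k] B₀₁) := by
  haveI := H250.nontrivial_B01 hC
  exact (Algebra.TensorProduct.includeLeft_injective (R := k) (S := k) (A := K) (B := B₀₁)
    (algebraMap k B₀₁).injective).nontrivial

theorem chart_isDomain₀ [IsAlgClosed k] (hC : IsCurveChart k B₀ B₁ B₀₁ x y e) (K : Type u)
    [Field K] [Algebra k K] : IsDomain (K ⊗[k] B₀) := by
  haveI := hC.isDomain₀
  exact H567.isDomain_tensorProduct_of_isAlgClosed k K B₀

theorem chart_isDomain₁ [IsAlgClosed k] (hC : IsCurveChart k B₀ B₁ B₀₁ x y e) (K : Type u)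
    [Field K] [Algebra k K] : IsDomain (K ⊗[k] B₁) := by
  haveI := hC.isDomain₁
  exact H567.isDomain_tensorProduct_of_isAlgClosed k K B₁

end Chart

end Fermat.Agent.S25.H565
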