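import Mathlib

/-!
# S25 / A4-DEG (helper565): Euler characteristic of two-term complexes over a field

For a linear map `d : M → N` of (possibly infinite-dimensional) vector spaces over a field `K`
we write `h⁰ = dim ker d`, `h¹ = dim coker d` and `χ(d) = h⁰ - h¹` (when both are finite:
`FinCoh d`).  This file proves the additivity of `χ` for an injective morphism of complexes
with finite-dimensional cokernels:

```
   M  --d-->  N
   |f         |g          χ(d') = χ(d) + dim (M'/fM) - dim (N'/gN).
   v          v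
   M' --d'--> N'
```
This is the Riemann–Roch bookkeeping for modifications of line bundles in Čech form.
Mathlib only.
-/

set_option autoImplicit false

namespace Fermat.Agent.S25.H565

open Submodule

universe u v

section Defs

variable {K : Type*} [Field K] {M N : Type*} [AddCommGroup M] [AddCommGroup N]
  [Module K M] [Module K N]

/-- The two-term complex `d` has finite-dimensional cohomology. -/
def FinCoh (d : M →ₗ[K] N) : Prop :=
  FiniteDimensional K (LinearMap.ker d) ∧ FiniteDimensional K (N ⧸ LinearMap.range d)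

/-- `h⁰ = dim ker d`. -/
noncomputable def hZero (d : M →ₗ[K] N) : ℕ := Module.finrank K (LinearMap.ker d)

/-- `h¹ = dim coker d`. -/
noncomputable def hOne (d : M →ₗ[K] N) : ℕ := Module.finrank K (N ⧸ LinearMap.range d)

/-- The Euler characteristic `χ = h⁰ - h¹`. -/
noncomputable def chi (d : M →ₗ[K] N) : ℤ := (hZero d : ℤ) - (hOne d : ℤ)

theorem chi_def (d : M →ₗ[K] N) : chi d = (hZero d : ℤ) - (hOne d : ℤ) := rfl

/-- Riemann's inequality in its trivial form: `h⁰ ≥ χ`. -/
theorem chi_le_hZero (d : M →ₗ[K] N) : chi d ≤ hZero d := by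
  rw [chi_def]; omega

theorem hOne_eq_zero_iff (d : M →ₗ[K] N) (h : FinCoh d) :
    hOne d = 0 ↔ Function.Surjective d := by
  have := h.2
  rw [hOne, Module.finrank_zero_iff, ← LinearMap.range_eq_top,
    Submodule.Quotient.subsingleton_iff]

theorem hZero_eq_zero_iff (d : M →ₗ[K] N) (h : FinCoh d) :
    hZero d = 0 ↔ Function.Injective d := by
  have := h.1
  rw [hZero, Module.finrank_zero_iff, ← LinearMap.ker_eq_bot, Submodule.subsingleton_iff_eq_bot]

/-- If `h¹ = 0` then `h⁰ = χ`. -/
theorem hZero_eq_chi_of_surjective (d : M →ₗ[K] N) (h : FinCoh d)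
    (hs : Function.Surjective d) : (hZero d : ℤ) = chi d := by
  rw [chi_def, (hOne_eq_zero_iff d h).2 hs]; simp

end Defs

section Exact

variable {K : Type*} [Field K]

/-- Dimension count for a short exact sequence `0 → A → B → C → 0` given by maps. -/
theorem finrank_of_exact {A B C : Type*} [AddCommGroup A] [AddCommGroup B] [AddCommGroup C]
    [Module K A] [Module K B] [Module K C] (i : A →ₗ[K] B) (p : B →ₗ[K] C)
    (hi : Function.Injective i) (hp : Function.Surjective p)
    (hex : LinearMap.range i = LinearMap.ker p)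
    [FiniteDimensional K A] [FiniteDimensional K C] :
    FiniteDimensional K B ∧ Module.finrank K B = Module.finrank K A + Module.finrank K C := by
  have hB : FiniteDimensional K B :=
    Module.Finite.of_exact (LinearMap.exact_iff.2 hex.symm) hp
  refine ⟨hB, ?_⟩
  have h1 := LinearMap.finrank_range_add_finrank_ker p
  rw [LinearMap.range_eq_top.mpr hp, finrank_top, ← hex,
    LinearMap.finrank_range_of_inj hi] at h1
  omega

end Exact

section Morphism

variable {K : Type*} [Field K] {M M' N N' : Type*} [AddCommGroup M] [AddCommGroup M']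
  [AddCommGroup N] [AddCommGroup N'] [Module K M] [Module K M'] [Module K N] [Module K N']

/-- **Step A.** Post-composition with an injective map `g` with finite-dimensional cokernel:
`h⁰` is unchanged and `h¹` increases by `dim coker g`. -/
theorem finCoh_comp_left (d : M →ₗ[K] N) (g : N →ₗ[K] N') (hg : Function.Injective g)
    [FiniteDimensional K (N' ⧸ LinearMap.range g)] (hd : FinCoh d) :
    FinCoh (g ∘ₗ d) ∧ hZero (g ∘ₗ d) = hZero d ∧
      hOne (g ∘ₗ d) = hOne d + Module.finrank K (N' ⧸ LinearMap.range g) := by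
  have hker : LinearMap.ker (g ∘ₗ d) = LinearMap.ker d :=
    LinearMap.ker_comp_of_ker_eq_bot d (LinearMap.ker_eq_bot.2 hg)
  have h0 : FiniteDimensional K (LinearMap.ker (g ∘ₗ d)) := by rw [hker]; exact hd.1
  have hle1 : LinearMap.range d ≤ (LinearMap.range (g ∘ₗ d)).comap g := by
    rintro _ ⟨m, rfl⟩
    exact ⟨m, rfl⟩
  have hle2 : LinearMap.range (g ∘ₗ d) ≤ (LinearMap.range g).comap LinearMap.id := by
    rintro _ ⟨m, rfl⟩
    exact ⟨d m, rfl⟩
  let i : (N ⧸ LinearMap.range d) →ₗ[K] (N' ⧸ LinearMap.range (g ∘ₗ d)) :=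
    Submodule.mapQ _ _ g hle1
  let p : (N' ⧸ LinearMap.range (g ∘ₗ d)) →ₗ[K] (N' ⧸ LinearMap.range g) :=
    Submodule.mapQ _ _ LinearMap.id hle2
  have hi : Function.Injective i := by
    rw [← LinearMap.ker_eq_bot, LinearMap.ker_eq_bot']
    intro q hq
    obtain ⟨n, rfl⟩ := Submodule.Quotient.mk_surjective _ q
    rw [Submodule.mapQ_apply, Submodule.Quotient.mk_eq_zero] at hq
    obtain ⟨m, hm⟩ := hq
    rw [Submodule.Quotient.mk_eq_zero]
    exact ⟨m, hg hm⟩
  have hp : Function.Surjective p := by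
    intro q
    obtain ⟨n, rfl⟩ := Submodule.Quotient.mk_surjective _ q
    exact ⟨Submodule.Quotient.mk n, rfl⟩
  have hex : LinearMap.range i = LinearMap.ker p := by
    ext q
    obtain ⟨n', rfl⟩ := Submodule.Quotient.mk_surjective _ q
    constructor
    · rintro ⟨q0, hq0⟩
      obtain ⟨n, rfl⟩ := Submodule.Quotient.mk_surjective _ q0
      rw [LinearMap.mem_ker, ← hq0]
      show p (i (Submodule.Quotient.mk n)) = 0
      rw [Submodule.mapQ_apply, Submodule.mapQ_apply, Submodule.Quotient.mk_eq_zero]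
      exact ⟨n, rfl⟩
    · intro h
      rw [LinearMap.mem_ker, Submodule.mapQ_apply, Submodule.Quotient.mk_eq_zero] at h
      obtain ⟨n, hn⟩ := h
      refine ⟨Submodule.Quotient.mk n, ?_⟩
      rw [Submodule.mapQ_apply]
      exact congrArg _ hn
  have hd2 := hd.2
  obtain ⟨h1, h2⟩ := finrank_of_exact i p hi hp hex
  refine ⟨⟨h0, h1⟩, ?_, ?_⟩
  · rw [hZero, hZero, hker]
  · rw [hOne, hOne, h2]

variable (f : M →ₗ[K] M') (d' : M' →ₗ[K] N')

/-- `ker (d' ∘ f) → ker d'`, induced by `f`. -/
def kerMap : LinearMap.ker (d' ∘ₗ f) →ₗ[K] LinearMap.ker d' :=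
  LinearMap.codRestrict _ (f ∘ₗ (LinearMap.ker (d' ∘ₗ f)).subtype) (by
    rintro ⟨m, hm⟩
    simpa using hm)

/-- `ker d' → M' / f M`. -/
def kerToCoker : LinearMap.ker d' →ₗ[K] M' ⧸ LinearMap.range f :=
  (LinearMap.range f).mkQ ∘ₗ (LinearMap.ker d').subtype

/-- `M' / f M → N' / d' f M`, induced by `d'`. -/
def cokerMap : (M' ⧸ LinearMap.range f) →ₗ[K] N' ⧸ LinearMap.range (d' ∘ₗ f) :=
  Submodule.liftQ _ ((LinearMap.range (d' ∘ₗ f)).mkQ ∘ₗ d') (by
    rintro _ ⟨m, rfl⟩
    rw [LinearMap.mem_ker, LinearMap.comp_apply, mkQ_apply, Submodule.Quotient.mk_eq_zero]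
    exact ⟨m, rfl⟩)

/-- `N' / d' f M → N' / d' M'`. -/
def cokerProj : (N' ⧸ LinearMap.range (d' ∘ₗ f)) →ₗ[K] N' ⧸ LinearMap.range d' :=
  Submodule.liftQ _ (LinearMap.range d').mkQ (by
    rintro _ ⟨m, rfl⟩
    rw [LinearMap.mem_ker, mkQ_apply, Submodule.Quotient.mk_eq_zero]
    exact ⟨f m, rfl⟩)

theorem kerMap_injective (hf : Function.Injective f) : Function.Injective (kerMap f d') := by
  intro a b h
  apply Subtype.ext
  apply hf
  exact congrArg (fun z : LinearMap.ker d' => (z : M')) h

theorem range_kerMap : LinearMap.range (kerMap f d') = LinearMap.ker (kerToCoker f d') := by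
  ext ⟨m', hm'⟩
  constructor
  · rintro ⟨m, hm⟩
    have h1 : f m = m' := congrArg (fun z : LinearMap.ker d' => (z : M')) hm
    rw [LinearMap.mem_ker]
    show Submodule.Quotient.mk m' = (0 : M' ⧸ LinearMap.range f)
    rw [Submodule.Quotient.mk_eq_zero]
    exact ⟨m, h1⟩
  · intro h
    rw [LinearMap.mem_ker] at h
    have h' : Submodule.Quotient.mk m' = (0 : M' ⧸ LinearMap.range f) := h
    rw [Submodule.Quotient.mk_eq_zero] at h'
    obtain ⟨m, hm⟩ := h'
    refine ⟨⟨m, ?_⟩, ?_⟩
    · rw [LinearMap.mem_ker, LinearMap.comp_apply, hm]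
      exact hm'
    · apply Subtype.ext
      exact hm

theorem range_kerToCoker : LinearMap.range (kerToCoker f d') = LinearMap.ker (cokerMap f d') := by
  ext q
  obtain ⟨m', rfl⟩ := Submodule.Quotient.mk_surjective _ q
  constructor
  · rintro ⟨⟨z, hz⟩, hzq⟩
    have h1 : Submodule.Quotient.mk z = (Submodule.Quotient.mk m' : M' ⧸ LinearMap.range f) := hzq
    rw [LinearMap.mem_ker, ← h1]
    show Submodule.Quotient.mk (d' z) = (0 : N' ⧸ LinearMap.range (d' ∘ₗ f))
    rw [LinearMap.mem_ker.mp hz, Submodule.Quotient.mk_zero]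
  · intro h
    rw [LinearMap.mem_ker] at h
    have h' : Submodule.Quotient.mk (d' m') = (0 : N' ⧸ LinearMap.range (d' ∘ₗ f)) := h
    rw [Submodule.Quotient.mk_eq_zero] at h'
    obtain ⟨m, hm⟩ := h'
    rw [LinearMap.comp_apply] at hm
    refine ⟨⟨m' - f m, ?_⟩, ?_⟩
    · rw [LinearMap.mem_ker, map_sub, hm, sub_self]
    · show Submodule.Quotient.mk (m' - f m) = (Submodule.Quotient.mk m' : M' ⧸ LinearMap.range f)
      rw [Submodule.Quotient.mk_sub, sub_eq_self, Submodule.Quotient.mk_eq_zero]
      exact ⟨m, rfl⟩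

theorem range_cokerMap : LinearMap.range (cokerMap f d') = LinearMap.ker (cokerProj f d') := by
  ext q
  obtain ⟨n, rfl⟩ := Submodule.Quotient.mk_surjective _ q
  constructor
  · rintro ⟨p, hp⟩
    obtain ⟨m', rfl⟩ := Submodule.Quotient.mk_surjective _ p
    have h1 : Submodule.Quotient.mk (d' m') =
        (Submodule.Quotient.mk n : N' ⧸ LinearMap.range (d' ∘ₗ f)) := hp
    rw [LinearMap.mem_ker, ← h1]
    show Submodule.Quotient.mk (d' m') = (0 : N' ⧸ LinearMap.range d')
    rw [Submodule.Quotient.mk_eq_zero]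
    exact ⟨m', rfl⟩
  · intro h
    rw [LinearMap.mem_ker] at h
    have h' : Submodule.Quotient.mk n = (0 : N' ⧸ LinearMap.range d') := h
    rw [Submodule.Quotient.mk_eq_zero] at h'
    obtain ⟨m', hm'⟩ := h'
    exact ⟨Submodule.Quotient.mk m', congrArg _ hm'⟩

theorem cokerProj_surjective : Function.Surjective (cokerProj f d') := by
  intro q
  obtain ⟨n, rfl⟩ := Submodule.Quotient.mk_surjective _ q
  exact ⟨Submodule.Quotient.mk n, rfl⟩

/-- **Step B.** Pre-composition with an injective map `f` with finite-dimensional cokernel: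
finiteness passes from `d' ∘ f` to `d'`, and `χ(d') = χ(d' ∘ f) + dim coker f`. -/
theorem finCoh_of_comp_right (hf : Function.Injective f)
    [FiniteDimensional K (M' ⧸ LinearMap.range f)] (hd : FinCoh (d' ∘ₗ f)) :
    FinCoh d' ∧ chi d' = chi (d' ∘ₗ f) + Module.finrank K (M' ⧸ LinearMap.range f) := by
  have hd1 := hd.1
  have hd2 := hd.2
  -- finiteness of `ker d'`
  have hK : FiniteDimensional K (LinearMap.ker d') := by
    have e1 : FiniteDimensional K (LinearMap.ker (kerToCoker f d')) := by
      rw [← range_kerMap]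
      exact Module.Finite.range _
    have e2 : FiniteDimensional K (LinearMap.range (kerToCoker f d')) := inferInstance
    exact Module.Finite.of_exact (f := (LinearMap.ker (kerToCoker f d')).subtype)
      (g := (kerToCoker f d').rangeRestrict)
      (by
        rw [LinearMap.exact_iff, Submodule.range_subtype, LinearMap.ker_rangeRestrict])
      (LinearMap.surjective_rangeRestrict _)
  have hC : FiniteDimensional K (N' ⧸ LinearMap.range d') :=
    Module.Finite.of_surjective (cokerProj f d') (cokerProj_surjective f d')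
  refine ⟨⟨hK, hC⟩, ?_⟩
  have h1 : Module.finrank K (LinearMap.ker (d' ∘ₗ f)) =
      Module.finrank K (LinearMap.ker (kerToCoker f d')) := by
    rw [← range_kerMap]
    exact (LinearMap.finrank_range_of_inj (kerMap_injective f d' hf)).symm
  have h2 := LinearMap.finrank_range_add_finrank_ker (kerToCoker f d')
  have h3 := LinearMap.finrank_range_add_finrank_ker (cokerMap f d')
  have h4 := LinearMap.finrank_range_add_finrank_ker (cokerProj f d')
  rw [range_kerToCoker] at h2
  rw [range_cokerMap] at h3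
  rw [LinearMap.range_eq_top.mpr (cokerProj_surjective f d'), finrank_top] at h4
  simp only [chi_def, hZero, hOne]
  omega

/-- Converse finiteness: from `d'` to `d' ∘ f`. -/
theorem finCoh_comp_right (hf : Function.Injective f)
    [FiniteDimensional K (M' ⧸ LinearMap.range f)] (hd : FinCoh d') : FinCoh (d' ∘ₗ f) := by
  have hd1 := hd.1
  have hd2 := hd.2
  constructor
  · exact Module.Finite.of_injective (kerMap f d') (kerMap_injective f d' hf)
  · have e1 : FiniteDimensional K (LinearMap.ker (cokerProj f d')) := by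
      rw [← range_cokerMap]
      exact Module.Finite.range _
    exact Module.Finite.of_exact (f := (LinearMap.ker (cokerProj f d')).subtype)
      (g := cokerProj f d')
      (by rw [LinearMap.exact_iff, Submodule.range_subtype])
      (cokerProj_surjective f d')

variable {f d'}

/-- **Euler characteristic of an injective morphism of two-term complexes** with
finite-dimensional cokernels: `χ(d') = χ(d) + dim coker f - dim coker g`. -/
theorem chi_of_morphism {d : M →ₗ[K] N} {g : N →ₗ[K] N'} (hcomm : d' ∘ₗ f = g ∘ₗ d)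
    (hf : Function.Injective f) (hg : Function.Injective g)
    [FiniteDimensional K (M' ⧸ LinearMap.range f)]
    [FiniteDimensional K (N' ⧸ LinearMap.range g)] (hd : FinCoh d) :
    FinCoh d' ∧ chi d' = chi d + Module.finrank K (M' ⧸ LinearMap.range f)
      - Module.finrank K (N' ⧸ LinearMap.range g) := by
  obtain ⟨hA, hA0, hA1⟩ := finCoh_comp_left d g hg hd
  rw [← hcomm] at hA hA0 hA1
  obtain ⟨hB, hB1⟩ := finCoh_of_comp_right f d' hf hA
  refine ⟨hB, ?_⟩
  rw [hB1, chi_def, chi_def, hA0, hA1]
  push_cast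
  ring

/-- Converse finiteness for a morphism of complexes. -/
theorem finCoh_of_morphism {d : M →ₗ[K] N} {g : N →ₗ[K] N'} (hcomm : d' ∘ₗ f = g ∘ₗ d)
    (hf : Function.Injective f) (hg : Function.Injective g)
    [FiniteDimensional K (M' ⧸ LinearMap.range f)] (hd' : FinCoh d') : FinCoh d := by
  have h1 := finCoh_comp_right f d' hf hd'
  rw [hcomm] at h1
  have h10 := h1.1
  have h11 := h1.2
  have hker : LinearMap.ker (g ∘ₗ d) = LinearMap.ker d :=
    LinearMap.ker_comp_of_ker_eq_bot d (LinearMap.ker_eq_bot.2 hg)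
  constructor
  · rw [← hker]; exact h10
  · have hle1 : LinearMap.range d ≤ (LinearMap.range (g ∘ₗ d)).comap g := by
      rintro _ ⟨m, rfl⟩
      exact ⟨m, rfl⟩
    refine Module.Finite.of_injective (Submodule.mapQ _ _ g hle1) ?_
    rw [← LinearMap.ker_eq_bot, LinearMap.ker_eq_bot']
    intro q hq
    obtain ⟨n, rfl⟩ := Submodule.Quotient.mk_surjective _ q
    rw [Submodule.mapQ_apply, Submodule.Quotient.mk_eq_zero] at hq
    obtain ⟨m, hm⟩ := hq
    rw [Submodule.Quotient.mk_eq_zero]
    exact ⟨m, hg hm⟩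

/-- `H¹(d) → H¹(d')` is onto as soon as `N' = g N + d' M'`; in particular `H¹(d) = 0` implies
`H¹(d') = 0`. -/
theorem surjective_of_morphism {d : M →ₗ[K] N} {g : N →ₗ[K] N'} (hcomm : d' ∘ₗ f = g ∘ₗ d)
    (hsup : LinearMap.range g ⊔ LinearMap.range d' = ⊤) (hd : Function.Surjective d) :
    Function.Surjective d' := by
  intro n'
  have hn' : n' ∈ LinearMap.range g ⊔ LinearMap.range d' := by rw [hsup]; trivial
  obtain ⟨_, ⟨n, rfl⟩, _, ⟨m', rfl⟩, rfl⟩ := Submodule.mem_sup.mp hn'
  obtain ⟨m, rfl⟩ := hd n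
  refine ⟨f m + m', ?_⟩
  rw [map_add]
  congr 1
  exact LinearMap.congr_fun hcomm m

end Morphism

end Fermat.Agent.S25.H565
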