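import Mathlib
import Fermat.Agent.S25.DefsAlg
import Fermat.Agent.S25.H565.Chi

/-!
# S25 / DEGREE D3 (helper565): modifications of gluing data over a field

For an injective morphism `φ : G → G'` of gluing data over a field `K` (cospan
`R₀ → R₀₁ ← R₁` with `R₀₁ = R₀[1/x] = R₁[1/y]`) whose cokernels `Q₀ = N₀'/N₀`, `Q₁ = N₁'/N₁`
are finite-dimensional over `K`:

* `Q₀ → Q₀₁` and `Q₁ → Q₀₁` are onto (a finite-length module maps onto its localization);
* `χ(G') = χ(G) + dim Q₀ + dim Q₁ - dim Q₀₁`;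
* `H¹(G) → H¹(G')` is onto; in particular `H¹(G) = 0` implies `H¹(G') = 0`.
-/

set_option autoImplicit false

namespace Fermat.Agent.S25.H565

open Submodule Fermat.Agent.S25

universe u

section LinAlg

variable {K : Type*} [Field K] {V : Type*} [AddCommGroup V] [Module K V]

/-- A finite-dimensional subspace `I`, stable under an injective endomorphism `T`, which
absorbs every vector under iteration of `T`, is everything. -/
theorem eq_top_of_absorbing (T : V →ₗ[K] V) (hT : Function.Injective T) (I : Submodule K V)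
    [FiniteDimensional K I] (hI : ∀ v ∈ I, T v ∈ I) (habs : ∀ v : V, ∃ k : ℕ, (T ^ k) v ∈ I) :
    I = ⊤ := by
  -- `T` restricted to `I` is injective, hence surjective
  let TI : I →ₗ[K] I := T.restrict hI
  have hinj : Function.Injective TI := by
    intro a b hab
    apply Subtype.ext
    apply hT
    exact congrArg Subtype.val hab
  have hsurj : Function.Surjective TI := LinearMap.injective_iff_surjective.mp hinj
  have hstep : ∀ v : V, T v ∈ I → v ∈ I := by
    intro v hv
    obtain ⟨w, hw⟩ := hsurj ⟨T v, hv⟩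
    have h1 : T (w : V) = T v := congrArg Subtype.val hw
    rw [← hT h1]
    exact w.2
  have hall : ∀ (k : ℕ) (v : V), (T ^ k) v ∈ I → v ∈ I := by
    intro k
    induction k with
    | zero => intro v hv; simpa using hv
    | succ k ih =>
      intro v hv
      rw [pow_succ, Module.End.mul_apply] at hv
      exact hstep v (ih (T v) hv)
  rw [eq_top_iff]
  intro v _
  obtain ⟨k, hk⟩ := habs v
  exact hall k v hk

/-- The quotient of a product by a product of ranges. -/
noncomputable def quotProdEquiv {M N M' N' : Type*} [AddCommGroup M] [AddCommGroup N]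
    [AddCommGroup M'] [AddCommGroup N'] [Module K M] [Module K N] [Module K M'] [Module K N']
    (f : M →ₗ[K] M') (g : N →ₗ[K] N') :
    ((M' × N') ⧸ LinearMap.range (f.prodMap g)) ≃ₗ[K]
      (M' ⧸ LinearMap.range f) × (N' ⧸ LinearMap.range g) :=
  (Submodule.quotEquivOfEq _ _ (by
    rw [LinearMap.range_prodMap, LinearMap.ker_prodMap, Submodule.ker_mkQ,
      Submodule.ker_mkQ])).trans
    (LinearMap.quotKerEquivOfSurjective
      ((LinearMap.range f).mkQ.prodMap (LinearMap.range g).mkQ)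
      (by
        rintro ⟨a, b⟩
        obtain ⟨a', rfl⟩ := Submodule.mkQ_surjective _ a
        obtain ⟨b', rfl⟩ := Submodule.mkQ_surjective _ b
        exact ⟨(a', b'), rfl⟩))

/-- **A finite-length module maps onto its localization** (operator form).  `M'/W₀` is
finite-dimensional, `r' : M' → L'` is a "localization" (every `z'` is absorbed into its range
by a power of the invertible operator `T'`), and `g : L → L'` is equivariant with
`r' W₀ ⊆ range g`.  Then `L' = range g + range r'`. -/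
theorem range_sup_range_eq_top {M' L L' : Type*} [AddCommGroup M'] [AddCommGroup L]
    [AddCommGroup L'] [Module K M'] [Module K L] [Module K L']
    (W₀ : Submodule K M') [FiniteDimensional K (M' ⧸ W₀)]
    (X' : M' →ₗ[K] M') (T : L →ₗ[K] L) (hT : Function.Surjective T)
    (T' : L' →ₗ[K] L') (hT' : Function.Injective T')
    (g : L →ₗ[K] L') (hgT : ∀ z, g (T z) = T' (g z))
    (r' : M' →ₗ[K] L') (hr'X : ∀ n, r' (X' n) = T' (r' n))
    (hW : ∀ w ∈ W₀, r' w ∈ LinearMap.range g)
    (habs : ∀ z' : L', ∃ (k : ℕ) (n' : M'), (T' ^ k) z' = r' n') :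
    LinearMap.range g ⊔ LinearMap.range r' = ⊤ := by
  have hle : LinearMap.range g ≤ (LinearMap.range g).comap T' := by
    rintro _ ⟨z, rfl⟩
    exact ⟨T z, hgT z⟩
  let Tbar : (L' ⧸ LinearMap.range g) →ₗ[K] (L' ⧸ LinearMap.range g) :=
    Submodule.mapQ _ _ T' hle
  have hTbar : ∀ z' : L', Tbar (Submodule.Quotient.mk z') = Submodule.Quotient.mk (T' z') :=
    fun z' => rfl
  have hTbar_pow : ∀ (k : ℕ) (z' : L'),
      (Tbar ^ k) (Submodule.Quotient.mk z') = Submodule.Quotient.mk ((T' ^ k) z') := by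
    intro k
    induction k with
    | zero => intro z'; simp
    | succ k ih =>
      intro z'
      rw [pow_succ, Module.End.mul_apply, hTbar, ih, pow_succ, Module.End.mul_apply]
  have hinj : Function.Injective Tbar := by
    rw [← LinearMap.ker_eq_bot, LinearMap.ker_eq_bot']
    intro q hq
    obtain ⟨z', rfl⟩ := Submodule.Quotient.mk_surjective _ q
    rw [hTbar, Submodule.Quotient.mk_eq_zero] at hq
    obtain ⟨z, hz⟩ := hq
    obtain ⟨z₁, rfl⟩ := hT z
    rw [hgT] at hz
    rw [Submodule.Quotient.mk_eq_zero]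
    exact ⟨z₁, hT' hz⟩
  let ψ : (M' ⧸ W₀) →ₗ[K] (L' ⧸ LinearMap.range g) :=
    Submodule.mapQ W₀ (LinearMap.range g) r' (fun w hw => hW w hw)
  have hψ : ∀ n' : M', ψ (Submodule.Quotient.mk n') = Submodule.Quotient.mk (r' n') :=
    fun n' => rfl
  have hI : ∀ v ∈ LinearMap.range ψ, Tbar v ∈ LinearMap.range ψ := by
    rintro _ ⟨q, rfl⟩
    obtain ⟨n', rfl⟩ := Submodule.Quotient.mk_surjective _ q
    refine ⟨Submodule.Quotient.mk (X' n'), ?_⟩
    rw [hψ, hψ, hTbar, hr'X]
  have habs' : ∀ v : L' ⧸ LinearMap.range g, ∃ k : ℕ, (Tbar ^ k) v ∈ LinearMap.range ψ := by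
    intro v
    obtain ⟨z', rfl⟩ := Submodule.Quotient.mk_surjective _ v
    obtain ⟨k, n', hk⟩ := habs z'
    refine ⟨k, Submodule.Quotient.mk n', ?_⟩
    rw [hψ, hTbar_pow, hk]
  have htop := eq_top_of_absorbing Tbar hinj (LinearMap.range ψ) hI habs'
  rw [eq_top_iff]
  intro z' _
  have hz' : (Submodule.Quotient.mk z' : L' ⧸ LinearMap.range g) ∈ LinearMap.range ψ := by
    rw [htop]; trivial
  obtain ⟨q, hq⟩ := hz'
  obtain ⟨n', rfl⟩ := Submodule.Quotient.mk_surjective _ q
  rw [hψ] at hq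
  have h1 : z' - r' n' ∈ LinearMap.range g := by
    rw [← Submodule.Quotient.mk_eq_zero, Submodule.Quotient.mk_sub, hq, sub_self]
  have h2 : z' = (z' - r' n') + r' n' := by abel
  rw [h2]
  exact Submodule.add_mem_sup h1 ⟨n', rfl⟩

/-- Under the hypotheses of `range_sup_range_eq_top`, the cokernel of `g` is a quotient of
`M'/W₀`. -/
theorem finrank_coker_le {M' L L' : Type*} [AddCommGroup M'] [AddCommGroup L]
    [AddCommGroup L'] [Module K M'] [Module K L] [Module K L']
    (W₀ : Submodule K M') [FiniteDimensional K (M' ⧸ W₀)]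
    (g : L →ₗ[K] L') (r' : M' →ₗ[K] L')
    (hW : ∀ w ∈ W₀, r' w ∈ LinearMap.range g)
    (hsup : LinearMap.range g ⊔ LinearMap.range r' = ⊤) :
    FiniteDimensional K (L' ⧸ LinearMap.range g) ∧
      Module.finrank K (L' ⧸ LinearMap.range g) ≤ Module.finrank K (M' ⧸ W₀) := by
  let ψ : (M' ⧸ W₀) →ₗ[K] (L' ⧸ LinearMap.range g) :=
    Submodule.mapQ W₀ (LinearMap.range g) r' (fun w hw => hW w hw)
  have hψ : Function.Surjective ψ := by
    intro q
    obtain ⟨z', rfl⟩ := Submodule.Quotient.mk_surjective _ q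
    have hz' : z' ∈ LinearMap.range g ⊔ LinearMap.range r' := by rw [hsup]; trivial
    obtain ⟨_, ⟨z, rfl⟩, _, ⟨n', rfl⟩, rfl⟩ := Submodule.mem_sup.mp hz'
    refine ⟨Submodule.Quotient.mk n', ?_⟩
    show Submodule.Quotient.mk (r' n') = (Submodule.Quotient.mk (g z + r' n') :
      L' ⧸ LinearMap.range g)
    have hz : (Submodule.Quotient.mk (g z) : L' ⧸ LinearMap.range g) = 0 :=
      (Submodule.Quotient.mk_eq_zero _).2 (LinearMap.mem_range_self g z)
    rw [Submodule.Quotient.mk_add, hz, zero_add]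
  exact ⟨Module.Finite.of_surjective ψ hψ, LinearMap.finrank_le_finrank_of_surjective hψ⟩

end LinAlg

section Hom

variable {A R₀ R₁ R₀₁ : Type u} [CommRing A] [CommRing R₀] [CommRing R₁]
    [CommRing R₀₁] [Algebra A R₀] [Algebra A R₁] [Algebra A R₀₁] [Algebra R₀ R₀₁]
    [Algebra R₁ R₀₁] [IsScalarTower A R₀ R₀₁] [IsScalarTower A R₁ R₀₁]

/-- A morphism of gluing data. -/
structure GlueHom (G G' : GlueDatum A R₀ R₁ R₀₁) where
  f₀ : G.N₀ →ₗ[R₀] G'.N₀
  f₁ : G.N₁ →ₗ[R₁] G'.N₁
  f₀₁ : G.N₀₁ →ₗ[R₀₁] G'.N₀₁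
  comm₀ : ∀ s, f₀₁ (G.r₀ s) = G'.r₀ (f₀ s)
  comm₁ : ∀ s, f₀₁ (G.r₁ s) = G'.r₁ (f₁ s)

namespace GlueHom

variable {G G' : GlueDatum A R₀ R₁ R₀₁} (φ : GlueHom G G')

/-- The `A`-linear map on `N₀ × N₁`. -/
def fProd : (G.N₀ × G.N₁) →ₗ[A] (G'.N₀ × G'.N₁) :=
  (φ.f₀.restrictScalars A).prodMap (φ.f₁.restrictScalars A)

/-- The `A`-linear map on `N₀₁`. -/
def fMid : G.N₀₁ →ₗ[A] G'.N₀₁ := φ.f₀₁.restrictScalars A

@[simp] theorem fProd_apply (p : G.N₀ × G.N₁) : φ.fProd p = (φ.f₀ p.1, φ.f₁ p.2) := rfl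

@[simp] theorem fMid_apply (z : G.N₀₁) : φ.fMid z = φ.f₀₁ z := rfl

theorem cech_apply (G : GlueDatum A R₀ R₁ R₀₁) (p : G.N₀ × G.N₁) :
    G.cech p = G.r₀ p.1 - G.r₁ p.2 := by
  simp [GlueDatum.cech, sub_eq_add_neg]

/-- A morphism of gluing data is a morphism of Čech complexes. -/
theorem cech_comm : G'.cech ∘ₗ φ.fProd = φ.fMid ∘ₗ G.cech := by
  ext p <;>
  simp [cech_apply, φ.comm₀, φ.comm₁]

theorem fProd_injective (h₀ : Function.Injective φ.f₀) (h₁ : Function.Injective φ.f₁) :
    Function.Injective φ.fProd := by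
  rintro ⟨a, b⟩ ⟨a', b'⟩ h
  simp only [fProd_apply, Prod.mk.injEq] at h
  exact Prod.ext (h₀ h.1) (h₁ h.2)

end GlueHom

end Hom

section Away

variable {K : Type u} [Field K]

/-- Multiplication by a ring element, as a `K`-linear endomorphism. -/
def smulEnd (K : Type*) [Field K] {R : Type*} [CommRing R] [Algebra K R] (x : R) (L : Type*)
    [AddCommGroup L] [Module R L] [Module K L] [IsScalarTower K R L] : L →ₗ[K] L where
  toFun z := x • z
  map_add' := smul_add x
  map_smul' c z := by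
    simp only [RingHom.id_apply]
    exact smul_comm x c z

@[simp] theorem smulEnd_apply (K : Type*) [Field K] {R : Type*} [CommRing R] [Algebra K R]
    (x : R) (L : Type*) [AddCommGroup L] [Module R L] [Module K L] [IsScalarTower K R L]
    (z : L) : smulEnd K x L z = x • z := rfl

theorem smulEnd_pow_apply (K : Type*) [Field K] {R : Type*} [CommRing R] [Algebra K R]
    (x : R) (L : Type*) [AddCommGroup L] [Module R L] [Module K L] [IsScalarTower K R L]
    (k : ℕ) (z : L) : ((smulEnd K x L) ^ k) z = x ^ k • z := by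
  induction k generalizing z with
  | zero => simp
  | succ k ih => rw [pow_succ, Module.End.mul_apply, smulEnd_apply, ih, pow_succ, mul_smul]

/-- **Finite-length modules map onto their localization**, module form: if `N'/f N` is
finite-dimensional over `K`, `L' = N'[1/x]` and `g : L → L'` is the localization of
`f : N → N'`, then `L' = g L + r' N'`. -/
theorem sup_range_eq_top_of_away {R R' : Type u} [CommRing R] [CommRing R'] [Algebra K R]
    [Algebra K R'] [Algebra R R'] [IsScalarTower K R R'] (x : R) [IsLocalization.Away x R']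
    {N N' L L' : Type u} [AddCommGroup N] [AddCommGroup N'] [AddCommGroup L] [AddCommGroup L']
    [Module R N] [Module R N'] [Module K N] [Module K N'] [IsScalarTower K R N]
    [IsScalarTower K R N']
    [Module R' L] [Module R L] [IsScalarTower R R' L] [Module K L] [IsScalarTower K R' L]
    [IsScalarTower K R L]
    [Module R' L'] [Module R L'] [IsScalarTower R R' L'] [Module K L'] [IsScalarTower K R' L']
    [IsScalarTower K R L']
    (f : N →ₗ[R] N') (g : L →ₗ[R'] L') (r : N →ₗ[R] L) (r' : N' →ₗ[R] L')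
    (hr' : IsBaseChange R' r') (hcomm : ∀ n, g (r n) = r' (f n))
    [FiniteDimensional K (N' ⧸ LinearMap.range (f.restrictScalars K))] :
    LinearMap.range (g.restrictScalars K) ⊔ LinearMap.range (r'.restrictScalars K) = ⊤ := by
  have hloc : IsLocalizedModule (Submonoid.powers x) r' :=
    (isLocalizedModule_iff_isBaseChange (Submonoid.powers x) R' r').2 hr'
  have hu : IsUnit (algebraMap R R' x) := IsLocalization.Away.algebraMap_isUnit x
  obtain ⟨u, hu⟩ := hu
  have hxL : ∀ z : L, x • z = (u : R') • z := fun z => by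
    rw [hu, algebraMap_smul]
  have hxL' : ∀ z : L', x • z = (u : R') • z := fun z => by
    rw [hu, algebraMap_smul]
  refine range_sup_range_eq_top (LinearMap.range (f.restrictScalars K)) (smulEnd K x N')
    (smulEnd K x L) ?_ (smulEnd K x L') ?_ (g.restrictScalars K) ?_ (r'.restrictScalars K)
    ?_ ?_ ?_
  · intro z
    refine ⟨((u⁻¹ : R'ˣ) : R') • z, ?_⟩
    rw [smulEnd_apply, hxL, smul_smul, Units.mul_inv, one_smul]
  · intro a b hab
    simp only [smulEnd_apply, hxL'] at hab
    have := congrArg (fun w => ((u⁻¹ : R'ˣ) : R') • w) hab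
    simpa [smul_smul] using this
  · intro z
    simp only [smulEnd_apply, LinearMap.restrictScalars_apply, hxL, hxL', map_smul]
  · intro n
    simp only [smulEnd_apply, LinearMap.restrictScalars_apply, map_smul]
  · rintro _ ⟨n, rfl⟩
    exact ⟨r n, hcomm n⟩
  · intro z'
    obtain ⟨⟨n', s⟩, hs⟩ := IsLocalizedModule.surj (Submonoid.powers x) r' z'
    obtain ⟨k, hk⟩ := s.2
    refine ⟨k, n', ?_⟩
    rw [smulEnd_pow_apply, LinearMap.restrictScalars_apply, ← hs]
    have hk' : x ^ k = (s : R) := hk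
    rw [hk']
    rfl

/-- The localization of an injective map is injective (elementwise form). -/
theorem injective_of_away {R R' : Type u} [CommRing R] [CommRing R'] [Algebra R R']
    (x : R) [IsLocalization.Away x R']
    {N N' L L' : Type u} [AddCommGroup N] [AddCommGroup N'] [AddCommGroup L] [AddCommGroup L']
    [Module R N] [Module R N'] [Module R' L] [Module R L] [IsScalarTower R R' L]
    [Module R' L'] [Module R L'] [IsScalarTower R R' L']
    (f : N →ₗ[R] N') (g : L →ₗ[R'] L') (r : N →ₗ[R] L) (r' : N' →ₗ[R] L')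
    (hr : IsBaseChange R' r) (hr' : IsBaseChange R' r') (hcomm : ∀ n, g (r n) = r' (f n))
    (hf : Function.Injective f) : Function.Injective g := by
  have hloc : IsLocalizedModule (Submonoid.powers x) r :=
    (isLocalizedModule_iff_isBaseChange (Submonoid.powers x) R' r).2 hr
  have hloc' : IsLocalizedModule (Submonoid.powers x) r' :=
    (isLocalizedModule_iff_isBaseChange (Submonoid.powers x) R' r').2 hr'
  rw [← LinearMap.ker_eq_bot, LinearMap.ker_eq_bot']
  intro z hz
  obtain ⟨⟨n, s⟩, hs⟩ := IsLocalizedModule.surj (Submonoid.powers x) r z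
  have hs' : (s : R) • z = r n := hs
  have h1 : r' (f n) = 0 := by
    rw [← hcomm, ← hs', ← algebraMap_smul R' (s : R) z, map_smul, hz, smul_zero]
  obtain ⟨c, hc⟩ := (IsLocalizedModule.eq_zero_iff (Submonoid.powers x) r').1 h1
  have hc' : (c : R) • f n = 0 := hc
  have h2 : (c : R) • n = 0 := by
    apply hf
    rw [map_smul, hc', map_zero]
  have h3 : (c * s) • z = 0 := by
    show ((c * s : Submonoid.powers x) : R) • z = 0
    rw [Submonoid.coe_mul, mul_smul, hs', ← map_smul, h2, map_zero]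
  exact (IsLocalizedModule.smul_inj r (c * s) z 0).1 (by rw [h3, smul_zero])

end Away

section Main

variable {K R₀ R₁ R₀₁ : Type u} [Field K] [CommRing R₀] [CommRing R₁]
    [CommRing R₀₁] [Algebra K R₀] [Algebra K R₁] [Algebra K R₀₁] [Algebra R₀ R₀₁]
    [Algebra R₁ R₀₁] [IsScalarTower K R₀ R₀₁] [IsScalarTower K R₁ R₀₁]
    {G G' : GlueDatum K R₀ R₁ R₀₁}

namespace GlueHom

variable (φ : GlueHom G G')

/-- The cokernel of `φ` on the chart `Spec R₀`, as a `K`-vector space. -/
abbrev coker₀ : Type u := G'.N₀ ⧸ LinearMap.range (φ.f₀.restrictScalars K)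

/-- The cokernel of `φ` on the chart `Spec R₁`, as a `K`-vector space. -/
abbrev coker₁ : Type u := G'.N₁ ⧸ LinearMap.range (φ.f₁.restrictScalars K)

/-- The cokernel of `φ` on the intersection, as a `K`-vector space. -/
abbrev coker₀₁ : Type u := G'.N₀₁ ⧸ LinearMap.range φ.fMid

theorem f₀₁_injective (x : R₀) [IsLocalization.Away x R₀₁] (h₀ : Function.Injective φ.f₀) :
    Function.Injective φ.f₀₁ :=
  injective_of_away x φ.f₀ φ.f₀₁ G.r₀ G'.r₀ G.isBaseChange₀ G'.isBaseChange₀ φ.comm₀ h₀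

theorem sup_range_r₀ (x : R₀) [IsLocalization.Away x R₀₁] [FiniteDimensional K φ.coker₀] :
    LinearMap.range φ.fMid ⊔ LinearMap.range (G'.r₀.restrictScalars K) = ⊤ :=
  sup_range_eq_top_of_away x φ.f₀ φ.f₀₁ G.r₀ G'.r₀ G'.isBaseChange₀ φ.comm₀

theorem sup_range_r₁ (y : R₁) [IsLocalization.Away y R₀₁] [FiniteDimensional K φ.coker₁] :
    LinearMap.range φ.fMid ⊔ LinearMap.range (G'.r₁.restrictScalars K) = ⊤ :=
  sup_range_eq_top_of_away y φ.f₁ φ.f₀₁ G.r₁ G'.r₁ G'.isBaseChange₁ φ.comm₁

/-- `Q₀₁` is a quotient of `Q₀`. -/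
theorem finrank_coker₀₁_le₀ (x : R₀) [IsLocalization.Away x R₀₁]
    [FiniteDimensional K φ.coker₀] :
    FiniteDimensional K φ.coker₀₁ ∧
      Module.finrank K φ.coker₀₁ ≤ Module.finrank K φ.coker₀ :=
  finrank_coker_le (LinearMap.range (φ.f₀.restrictScalars K)) φ.fMid
    (G'.r₀.restrictScalars K) (by
      rintro _ ⟨n, rfl⟩
      exact ⟨G.r₀ n, φ.comm₀ n⟩) (φ.sup_range_r₀ x)

/-- `Q₀₁` is a quotient of `Q₁`. -/
theorem finrank_coker₀₁_le₁ (y : R₁) [IsLocalization.Away y R₀₁]
    [FiniteDimensional K φ.coker₁] :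
    FiniteDimensional K φ.coker₀₁ ∧
      Module.finrank K φ.coker₀₁ ≤ Module.finrank K φ.coker₁ :=
  finrank_coker_le (LinearMap.range (φ.f₁.restrictScalars K)) φ.fMid
    (G'.r₁.restrictScalars K) (by
      rintro _ ⟨n, rfl⟩
      exact ⟨G.r₁ n, φ.comm₁ n⟩) (φ.sup_range_r₁ y)

theorem euler_eq_chi (G : GlueDatum K R₀ R₁ R₀₁) : G.euler = chi G.cech := rfl

/-- **D3 (modification).** For an injective morphism of gluing data over a field with
finite-dimensional cokernels `Q₀`, `Q₁`: finiteness of cohomology passes from `G` to `G'` and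
`χ(G') = χ(G) + dim Q₀ + dim Q₁ - dim Q₀₁`. -/
theorem euler_eq (x : R₀) [IsLocalization.Away x R₀₁]
    (h₀ : Function.Injective φ.f₀) (h₁ : Function.Injective φ.f₁)
    [FiniteDimensional K φ.coker₀] [FiniteDimensional K φ.coker₁] (hG : FinCoh G.cech) :
    FinCoh G'.cech ∧ G'.euler = G.euler + Module.finrank K φ.coker₀
      + Module.finrank K φ.coker₁ - Module.finrank K φ.coker₀₁ := by
  have hQ := (φ.finrank_coker₀₁_le₀ x).1
  have hfin : FiniteDimensional K ((G'.N₀ × G'.N₁) ⧸ LinearMap.range φ.fProd) :=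
    Module.Finite.equiv (quotProdEquiv (φ.f₀.restrictScalars K) (φ.f₁.restrictScalars K)).symm
  have hrank : Module.finrank K ((G'.N₀ × G'.N₁) ⧸ LinearMap.range φ.fProd) =
      Module.finrank K φ.coker₀ + Module.finrank K φ.coker₁ := by
    have e := LinearEquiv.finrank_eq
      (quotProdEquiv (φ.f₀.restrictScalars K) (φ.f₁.restrictScalars K))
    rw [Module.finrank_prod] at e
    exact e
  have hinj : Function.Injective φ.fMid := φ.f₀₁_injective x h₀
  obtain ⟨hfc, hchi⟩ := chi_of_morphism φ.cech_comm (φ.fProd_injective h₀ h₁) hinj hG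
  refine ⟨hfc, ?_⟩
  rw [euler_eq_chi, euler_eq_chi, hchi, hrank]
  push_cast
  ring

/-- Converse finiteness: from `G'` to `G`. -/
theorem finCoh_of_finCoh (x : R₀) [IsLocalization.Away x R₀₁]
    (h₀ : Function.Injective φ.f₀) (h₁ : Function.Injective φ.f₁)
    [FiniteDimensional K φ.coker₀] [FiniteDimensional K φ.coker₁] (hG' : FinCoh G'.cech) :
    FinCoh G.cech := by
  have hfin : FiniteDimensional K ((G'.N₀ × G'.N₁) ⧸ LinearMap.range φ.fProd) :=
    Module.Finite.equiv (quotProdEquiv (φ.f₀.restrictScalars K) (φ.f₁.restrictScalars K)).symm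
  exact finCoh_of_morphism φ.cech_comm (φ.fProd_injective h₀ h₁) (φ.f₀₁_injective x h₀) hG'

/-- **D3 (surjectivity on `H¹`).** If `Q₀` is finite-dimensional, then `H¹(G) → H¹(G')` is
onto; in particular `H¹(G) = 0` implies `H¹(G') = 0`. -/
theorem cech_surjective (x : R₀) [IsLocalization.Away x R₀₁] [FiniteDimensional K φ.coker₀]
    (hs : Function.Surjective G.cech) : Function.Surjective G'.cech := by
  refine surjective_of_morphism φ.cech_comm ?_ hs
  rw [eq_top_iff, ← φ.sup_range_r₀ x]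
  refine sup_le_sup_left ?_ _
  rintro _ ⟨n, rfl⟩
  refine ⟨(n, 0), ?_⟩
  rw [cech_apply]
  simp

/-- **D3 (monotonicity of `χ`).** `χ(G') ≥ χ(G) + max (dim Q₀, dim Q₁)`. -/
theorem euler_ge (x : R₀) (y : R₁) [IsLocalization.Away x R₀₁] [IsLocalization.Away y R₀₁]
    (h₀ : Function.Injective φ.f₀) (h₁ : Function.Injective φ.f₁)
    [FiniteDimensional K φ.coker₀] [FiniteDimensional K φ.coker₁] (hG : FinCoh G.cech) :
    G.euler + Module.finrank K φ.coker₀ ≤ G'.euler ∧
      G.euler + Module.finrank K φ.coker₁ ≤ G'.euler := by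
  have h := (φ.euler_eq x h₀ h₁ hG).2
  have ha := (φ.finrank_coker₀₁_le₀ x).2
  have hb := (φ.finrank_coker₀₁_le₁ y).2
  constructor <;> omega

/-- **D3 (equality case).** If `χ(G') = χ(G)` then `φ` is an isomorphism on both charts. -/
theorem surjective_of_euler_eq (x : R₀) (y : R₁) [IsLocalization.Away x R₀₁]
    [IsLocalization.Away y R₀₁]
    (h₀ : Function.Injective φ.f₀) (h₁ : Function.Injective φ.f₁)
    [FiniteDimensional K φ.coker₀] [FiniteDimensional K φ.coker₁] (hG : FinCoh G.cech)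
    (heq : G'.euler = G.euler) :
    Function.Surjective φ.f₀ ∧ Function.Surjective φ.f₁ := by
  obtain ⟨ha, hb⟩ := φ.euler_ge x y h₀ h₁ hG
  have h0 : Module.finrank K φ.coker₀ = 0 := by omega
  have h1 : Module.finrank K φ.coker₁ = 0 := by omega
  rw [Module.finrank_zero_iff, Submodule.Quotient.subsingleton_iff,
    LinearMap.range_eq_top] at h0 h1
  exact ⟨h0, h1⟩

end GlueHom

end Main

end Fermat.Agent.S25.H565
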