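import Mathlib

/-!
# S25 / DEGREE D5, algebra part (helper565): invertible modules over a one-dimensional domain

* `dual_smul_comm`: for an invertible module `N` over a domain, `ℓ a • b = ℓ b • a`
  (rank one).
* `exists_ne_zero_smul_mem_span`: for `s ≠ 0` in `N` there is `r ≠ 0` with `r • N ⊆ R s`.
* `exists_polynomial_dvd`: if `R` is a domain, finite over `K[x]`, every `r ≠ 0` divides
  `c(x)` for some nonzero polynomial `c`.
* `finiteDimensional_quotient_of_aeval_smul_mem`: a finitely generated `R`-module killed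
  modulo `W` by `c(x)`, `c ≠ 0`, has `N/W` finite-dimensional over `K`.
* `finiteDimensional_quotient_span_singleton`: `N / R s` is finite-dimensional over `K`.
Mathlib only.
-/

set_option autoImplicit false

namespace Fermat.Agent.S25.H565

open Polynomial

section RankOne

variable {R : Type*} [CommRing R] [IsDomain R] {N : Type*} [AddCommGroup N] [Module R N]
  [Module.Invertible R N]

/-- **Rank one.** In an invertible module over a domain, `ℓ a • b = ℓ b • a` for every linear
form `ℓ`. -/
theorem dual_smul_comm (ℓ : Module.Dual R N) (a b : N) : ℓ a • b = ℓ b • a := by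
  by_cases ha : a = 0
  · subst ha; simp
  let E : Module.End R N := (LinearMap.toSpanSingleton R N a) ∘ₗ ℓ
  obtain ⟨c, hc⟩ := (Module.Invertible.toModuleEnd_bijective R N).2 E
  have hE : ∀ v : N, c • v = ℓ v • a := fun v => by
    have := LinearMap.congr_fun hc v
    simpa [E] using this
  have h1 : c = ℓ a := by
    have h2 := hE a
    have h3 : (c - ℓ a) • a = 0 := by rw [sub_smul, h2, sub_self]
    rcases smul_eq_zero.mp h3 with h | h
    · exact sub_eq_zero.mp h
    · exact absurd h ha
  rw [← h1, hE b]

/-- A nonzero element of an invertible module over a domain is detected by a linear form. -/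
theorem exists_dual_ne_zero (s : N) (hs : s ≠ 0) : ∃ ℓ : Module.Dual R N, ℓ s ≠ 0 := by
  by_contra hcon
  push Not at hcon
  let Θ : TensorProduct R (Module.Dual R N) N →ₗ[R] N :=
    (LinearMap.toSpanSingleton R N s) ∘ₗ (contractLeft R N)
  have hΘ : Θ = 0 := by
    apply TensorProduct.ext'
    intro ℓ a
    simp only [Θ, LinearMap.coe_comp, Function.comp_apply, contractLeft_apply,
      LinearMap.toSpanSingleton_apply, LinearMap.zero_apply]
    rw [dual_smul_comm ℓ a s, hcon ℓ, zero_smul]
  obtain ⟨t, ht⟩ := (Module.Invertible.bijective : Function.Bijective (contractLeft R N)).2 1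
  have h1 : Θ t = s := by
    simp only [Θ, LinearMap.coe_comp, Function.comp_apply, ht,
      LinearMap.toSpanSingleton_apply, one_smul]
  rw [hΘ] at h1
  exact hs h1.symm

/-- For `s ≠ 0` in an invertible module over a domain there is `r ≠ 0` with `r • N ⊆ R s`. -/
theorem exists_ne_zero_smul_mem_span (s : N) (hs : s ≠ 0) :
    ∃ r : R, r ≠ 0 ∧ ∀ n : N, ∃ a : R, r • n = a • s := by
  obtain ⟨ℓ, hℓ⟩ := exists_dual_ne_zero (R := R) s hs
  exact ⟨ℓ s, hℓ, fun n => ⟨ℓ n, dual_smul_comm ℓ s n⟩⟩

end RankOne

section Finite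

variable {K : Type*} [Field K] {R : Type*} [CommRing R] [Algebra K R]

/-- If the domain `R` is finite over `K[x]`, every nonzero `r` divides `c(x)` for some nonzero
polynomial `c`. -/
theorem exists_polynomial_dvd [IsDomain R] (x : R)
    (hfin : (Polynomial.aeval x : K[X] →ₐ[K] R).Finite) (r : R) (hr : r ≠ 0) :
    ∃ c : K[X], c ≠ 0 ∧ r ∣ Polynomial.aeval x c := by
  let _ : Algebra K[X] R := (Polynomial.aeval x : K[X] →ₐ[K] R).toRingHom.toAlgebra
  have hint : IsIntegral K[X] r := hfin.to_isIntegral r
  have halg : IsAlgebraic K[X] r := hint.isAlgebraic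
  obtain ⟨c, hc0, hc⟩ := halg.exists_nonzero_dvd (mem_nonZeroDivisors_of_ne_zero hr)
  exact ⟨c, hc0, hc⟩

/-- **Finite-dimensionality of torsion quotients.**  `R` finite over `K[x]`, `N` a finitely
generated `R`-module, `W` a `K`-subspace with `c(x) • N ⊆ W` for a nonzero
polynomial `c`: then `N / W` is finite-dimensional over `K`. -/
theorem finiteDimensional_quotient_of_aeval_smul_mem (x : R)
    (hfin : (Polynomial.aeval x : K[X] →ₐ[K] R).Finite)
    {N : Type*} [AddCommGroup N] [Module R N] [Module K N] [IsScalarTower K R N]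
    [Module.Finite R N] (W : Submodule K N)
    (c : K[X]) (hc : c ≠ 0) (hcW : ∀ n : N, (Polynomial.aeval x c) • n ∈ W) :
    FiniteDimensional K (N ⧸ W) := by
  classical
  -- generators of `R` over `K[x]`
  have hR : ∃ SR : Finset R, ∀ b : R, ∃ p : R → K[X],
      b = ∑ e ∈ SR, Polynomial.aeval x (p e) * e := by
    let _ : Algebra K[X] R := (Polynomial.aeval x : K[X] →ₐ[K] R).toRingHom.toAlgebra
    have h1 : Module.Finite K[X] R := hfin
    obtain ⟨SR, hSR⟩ := h1.fg_top
    refine ⟨SR, fun b => ?_⟩
    have hb : b ∈ Submodule.span K[X] (SR : Set R) := by rw [hSR]; trivial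
    obtain ⟨p, -, hp⟩ := Submodule.mem_span_finset.mp hb
    exact ⟨p, hp.symm⟩
  obtain ⟨SR, hSR⟩ := hR
  -- generators of `N` over `R`
  obtain ⟨SN, hSN⟩ := (inferInstance : Module.Finite R N).fg_top
  have hN : ∀ n : N, ∃ b : N → R, n = ∑ m ∈ SN, b m • m := by
    intro n
    have hn : n ∈ Submodule.span R (SN : Set N) := by rw [hSN]; trivial
    obtain ⟨b, -, hb⟩ := Submodule.mem_span_finset.mp hn
    exact ⟨b, hb.symm⟩
  set d := c.natDegree with hd
  -- the finite spanning set
  let T : Finset (N ⧸ W) := (Finset.range d ×ˢ (SR ×ˢ SN)).image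
    (fun t => W.mkQ (x ^ t.1 • (t.2.1 • t.2.2)))
  have hkey : ∀ (p : K[X]) (e : R) (m : N), e ∈ SR → m ∈ SN →
      W.mkQ ((Polynomial.aeval x p * e) • m) ∈ Submodule.span K (T : Set (N ⧸ W)) := by
    intro p e m he hm
    have hdiv : p = c * (p / c) + p % c := (EuclideanDomain.div_add_mod p c).symm
    have hdeg : (p % c).natDegree < d ∨ p % c = 0 := by
      by_cases h0 : p % c = 0
      · exact Or.inr h0
      · left
        have := Polynomial.degree_mod_lt p hc
        exact (Polynomial.natDegree_lt_natDegree_iff h0).mpr this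
    have h1 : (Polynomial.aeval x p * e) • m =
        Polynomial.aeval x c • ((Polynomial.aeval x (p / c) * e) • m) +
          (Polynomial.aeval x (p % c) * e) • m := by
      conv_lhs => rw [hdiv]
      rw [map_add, map_mul, add_mul, add_smul, mul_assoc, mul_smul]
    rw [h1, map_add]
    have h2 : W.mkQ (Polynomial.aeval x c • ((Polynomial.aeval x (p / c) * e) • m)) = 0 := by
      rw [Submodule.mkQ_apply, Submodule.Quotient.mk_eq_zero]
      exact hcW _
    rw [h2, zero_add]
    have h3 : Polynomial.aeval x (p % c) = ∑ i ∈ Finset.range d,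
        (p % c).coeff i • x ^ i := by
      rcases hdeg with h | h
      · exact Polynomial.aeval_eq_sum_range' h x
      · rw [h]; simp
    rw [h3, Finset.sum_mul, Finset.sum_smul, map_sum]
    refine Submodule.sum_mem _ fun i hi => ?_
    have h4 : ((p % c).coeff i • x ^ i * e) • m = (p % c).coeff i • (x ^ i • (e • m)) := by
      rw [smul_mul_assoc, smul_assoc, mul_smul]
    rw [h4, map_smul]
    refine Submodule.smul_mem _ _ (Submodule.subset_span ?_)
    rw [Finset.mem_coe, Finset.mem_image]
    exact ⟨(i, (e, m)), by simp [hi, he, hm], rfl⟩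
  refine Module.finite_def.2 ?_
  refine ⟨T, ?_⟩
  rw [eq_top_iff]
  intro q _
  obtain ⟨n, rfl⟩ := Submodule.mkQ_surjective W q
  obtain ⟨b, hb⟩ := hN n
  rw [hb, map_sum]
  refine Submodule.sum_mem _ fun m hm => ?_
  obtain ⟨p, hp⟩ := hSR (b m)
  rw [hp, Finset.sum_smul, map_sum]
  exact Submodule.sum_mem _ fun e he => hkey (p e) e m he hm

/-- For `s ≠ 0` in an invertible module `N` over a domain `R` finite over `K[x]`, the
quotient `N / R s` is finite-dimensional over `K`. -/
theorem finiteDimensional_quotient_span_singleton [IsDomain R] (x : R)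
    (hfin : (Polynomial.aeval x : K[X] →ₐ[K] R).Finite)
    {N : Type*} [AddCommGroup N] [Module R N] [Module K N] [IsScalarTower K R N]
    [Module.Invertible R N] (s : N) (hs : s ≠ 0) :
    FiniteDimensional K
      (N ⧸ LinearMap.range ((LinearMap.toSpanSingleton R N s).restrictScalars K)) := by
  obtain ⟨r, hr, hrN⟩ := exists_ne_zero_smul_mem_span (R := R) s hs
  obtain ⟨c, hc, b, hb⟩ := exists_polynomial_dvd (K := K) x hfin r hr
  refine finiteDimensional_quotient_of_aeval_smul_mem x hfin _ c hc ?_
  intro n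
  obtain ⟨a, ha⟩ := hrN n
  refine ⟨b * a, ?_⟩
  simp only [LinearMap.restrictScalars_apply, LinearMap.toSpanSingleton_apply]
  rw [hb, mul_comm r b, mul_smul b r n, ha, mul_smul]

end Finite

end Fermat.Agent.S25.H565
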