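import Mathlib
import Fermat.Agent.S25.DefsAlg
import Fermat.Agent.S25.H565.GlueHom
import Fermat.Agent.S25.H565.RankOne

/-!
# S25 / DEGREE D5 (helper565): sections of gluing data over a field

Cospan `R₀ → R₀₁ ← R₁` of `K`-algebras, `K` a field, `R₀`, `R₁` domains finite over `K[x]`,
`K[y]`, `R₀₁ = R₀[1/x] = R₁[1/y]` nontrivial (the situation of a curve chart base-changed to
`K`).  For a gluing datum `G` and a nonzero global section `s ∈ H⁰(G)`:

* `sectionHom G s : GlueHom unit G` is injective with finite-dimensional cokernels;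
* `finCoh_of_section`, `degree_nonneg_of_section`: cohomology of `G` is finite-dimensional and
  `degree G = dim Q₀ + dim Q₁ - dim Q₀₁ ≥ 0`;
* `isIso_unit_of_degree_eq_zero`: if `degree G = 0` then `s` generates `N₀`, `N₁` and
  `G ≅ unit`.
-/

set_option autoImplicit false

namespace Fermat.Agent.S25.H565

open Fermat.Agent.S25 Polynomial

universe u

section SectionHom

variable {A R₀ R₁ R₀₁ : Type u} [CommRing A] [CommRing R₀] [CommRing R₁]
    [CommRing R₀₁] [Algebra A R₀] [Algebra A R₁] [Algebra A R₀₁] [Algebra R₀ R₀₁]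
    [Algebra R₁ R₀₁] [IsScalarTower A R₀ R₀₁] [IsScalarTower A R₁ R₀₁]

theorem mem_H0_iff (G : GlueDatum A R₀ R₁ R₀₁) (p : G.N₀ × G.N₁) :
    p ∈ G.H0 ↔ G.r₀ p.1 = G.r₁ p.2 := by
  rw [LinearMap.mem_ker, GlueHom.cech_apply, sub_eq_zero]

theorem sectionHom_aux₀ (G : GlueDatum A R₀ R₁ R₀₁) (s₀ : G.N₀) (b : R₀) :
    (LinearMap.toSpanSingleton R₀₁ G.N₀₁ (G.r₀ s₀)) (algebraMap R₀ R₀₁ b) =
      G.r₀ (LinearMap.toSpanSingleton R₀ G.N₀ s₀ b) := by
  simp only [LinearMap.toSpanSingleton_apply]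
  rw [map_smul, algebraMap_smul]

theorem sectionHom_aux₁ (G : GlueDatum A R₀ R₁ R₀₁) (s₀ : G.N₀) (s₁ : G.N₁)
    (h : G.r₀ s₀ = G.r₁ s₁) (b : R₁) :
    (LinearMap.toSpanSingleton R₀₁ G.N₀₁ (G.r₀ s₀)) (algebraMap R₁ R₀₁ b) =
      G.r₁ (LinearMap.toSpanSingleton R₁ G.N₁ s₁ b) := by
  simp only [LinearMap.toSpanSingleton_apply]
  rw [map_smul, algebraMap_smul, h]

/-- The morphism `unit → G` defined by a compatible pair of sections. -/
def sectionHom (G : GlueDatum A R₀ R₁ R₀₁) (s₀ : G.N₀) (s₁ : G.N₁)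
    (h : G.r₀ s₀ = G.r₁ s₁) : GlueHom (GlueDatum.unit A R₀ R₁ R₀₁) G where
  f₀ := LinearMap.toSpanSingleton R₀ G.N₀ s₀
  f₁ := LinearMap.toSpanSingleton R₁ G.N₁ s₁
  f₀₁ := LinearMap.toSpanSingleton R₀₁ G.N₀₁ (G.r₀ s₀)
  comm₀ := fun b => sectionHom_aux₀ G s₀ b
  comm₁ := fun b => sectionHom_aux₁ G s₀ s₁ h b

/-- A bijective morphism of gluing data is an isomorphism. -/
theorem GlueHom.isIso_of_bijective {G G' : GlueDatum A R₀ R₁ R₀₁} (φ : GlueHom G G')
    (h₀ : Function.Bijective φ.f₀) (h₁ : Function.Bijective φ.f₁)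
    (h₀₁ : Function.Bijective φ.f₀₁) : G.IsIso G' :=
  ⟨{ e₀ := LinearEquiv.ofBijective φ.f₀ h₀
     e₁ := LinearEquiv.ofBijective φ.f₁ h₁
     e₀₁ := LinearEquiv.ofBijective φ.f₀₁ h₀₁
     comm₀ := φ.comm₀
     comm₁ := φ.comm₁ }⟩

end SectionHom

section Field

variable {K R₀ R₁ R₀₁ : Type u} [Field K] [CommRing R₀] [CommRing R₁]
    [CommRing R₀₁] [Algebra K R₀] [Algebra K R₁] [Algebra K R₀₁] [Algebra R₀ R₀₁]
    [Algebra R₁ R₀₁] [IsScalarTower K R₀ R₀₁] [IsScalarTower K R₁ R₀₁]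

/-- The localization map of a torsion-free module at a nonzero element of a domain is
injective. -/
theorem injective_of_isBaseChange_away {R R' : Type u} [CommRing R] [CommRing R']
    [Algebra R R'] [IsDomain R] [Nontrivial R'] (x : R) [IsLocalization.Away x R']
    {N L : Type u} [AddCommGroup N] [AddCommGroup L] [Module R N] [Module R' L] [Module R L]
    [IsScalarTower R R' L] [Module.IsTorsionFree R N] (r : N →ₗ[R] L)
    (hr : IsBaseChange R' r) : Function.Injective r := by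
  have hloc : IsLocalizedModule (Submonoid.powers x) r :=
    (isLocalizedModule_iff_isBaseChange (Submonoid.powers x) R' r).2 hr
  have hx : x ≠ 0 := by
    intro h0
    have hu : IsUnit (algebraMap R R' x) := IsLocalization.Away.algebraMap_isUnit x
    rw [h0, map_zero] at hu
    exact not_isUnit_zero hu
  rw [← LinearMap.ker_eq_bot, LinearMap.ker_eq_bot']
  intro n hn
  obtain ⟨c, hc⟩ := (IsLocalizedModule.eq_zero_iff (Submonoid.powers x) r).1 hn
  obtain ⟨k, hk⟩ := c.2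
  have hc' : (x ^ k) • n = 0 := by
    have : (c : R) • n = 0 := hc
    rwa [← hk] at this
  rcases smul_eq_zero.mp hc' with h | h
  · exact absurd h (pow_ne_zero k hx)
  · exact h

variable [IsDomain R₀] [IsDomain R₁] [Nontrivial R₀₁]
  (x : R₀) (y : R₁) [IsLocalization.Away x R₀₁] [IsLocalization.Away y R₀₁]

include x in
theorem r₀_injective (G : GlueDatum K R₀ R₁ R₀₁) : Function.Injective G.r₀ := by
  haveI := G.invertible₀
  exact injective_of_isBaseChange_away x G.r₀ G.isBaseChange₀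

include y in
theorem r₁_injective (G : GlueDatum K R₀ R₁ R₀₁) : Function.Injective G.r₁ := by
  haveI := G.invertible₁
  exact injective_of_isBaseChange_away y G.r₁ G.isBaseChange₁

include x y in
/-- Both components of a nonzero global section are nonzero. -/
theorem section_ne_zero (G : GlueDatum K R₀ R₁ R₀₁) {s₀ : G.N₀} {s₁ : G.N₁}
    (h : G.r₀ s₀ = G.r₁ s₁) (hs : s₀ ≠ 0 ∨ s₁ ≠ 0) : s₀ ≠ 0 ∧ s₁ ≠ 0 := by
  constructor
  · intro h0
    rw [h0, map_zero] at h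
    have h1 : s₁ = 0 := r₁_injective y G (by rw [← h, map_zero])
    rcases hs with hs | hs
    · exact hs h0
    · exact hs h1
  · intro h1
    rw [h1, map_zero] at h
    have h0 : s₀ = 0 := r₀_injective x G (by rw [h, map_zero])
    rcases hs with hs | hs
    · exact hs h0
    · exact hs h1

theorem sectionHom_f₀_injective (G : GlueDatum K R₀ R₁ R₀₁) {s₀ : G.N₀} {s₁ : G.N₁}
    (h : G.r₀ s₀ = G.r₁ s₁) (hs₀ : s₀ ≠ 0) : Function.Injective (sectionHom G s₀ s₁ h).f₀ := by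
  haveI := G.invertible₀
  intro a b hab
  exact smul_left_injective R₀ hs₀ hab

theorem sectionHom_f₁_injective (G : GlueDatum K R₀ R₁ R₀₁) {s₀ : G.N₀} {s₁ : G.N₁}
    (h : G.r₀ s₀ = G.r₁ s₁) (hs₁ : s₁ ≠ 0) : Function.Injective (sectionHom G s₀ s₁ h).f₁ := by
  haveI := G.invertible₁
  intro a b hab
  exact smul_left_injective R₁ hs₁ hab

variable (hx : (Polynomial.aeval x : K[X] →ₐ[K] R₀).Finite)
  (hy : (Polynomial.aeval y : K[X] →ₐ[K] R₁).Finite)

include hx in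
theorem sectionHom_coker₀_finite (G : GlueDatum K R₀ R₁ R₀₁) {s₀ : G.N₀} {s₁ : G.N₁}
    (h : G.r₀ s₀ = G.r₁ s₁) (hs₀ : s₀ ≠ 0) :
    FiniteDimensional K (sectionHom G s₀ s₁ h).coker₀ := by
  haveI := G.invertible₀
  exact finiteDimensional_quotient_span_singleton x hx s₀ hs₀

include hy in
theorem sectionHom_coker₁_finite (G : GlueDatum K R₀ R₁ R₀₁) {s₀ : G.N₀} {s₁ : G.N₁}
    (h : G.r₀ s₀ = G.r₁ s₁) (hs₁ : s₁ ≠ 0) :
    FiniteDimensional K (sectionHom G s₀ s₁ h).coker₁ := by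
  haveI := G.invertible₁
  exact finiteDimensional_quotient_span_singleton y hy s₁ hs₁

include x y hx hy in
/-- **D5.** A gluing datum with a nonzero global section has finite-dimensional cohomology
(given this for the unit datum) and degree
`dim N₀/R₀s₀ + dim N₁/R₁s₁ - dim N₀₁/R₀₁s ≥ max (dim N₀/R₀s₀, dim N₁/R₁s₁) ≥ 0`. -/
theorem degree_of_section (hO : FinCoh (GlueDatum.unit K R₀ R₁ R₀₁).cech)
    (G : GlueDatum K R₀ R₁ R₀₁) {s₀ : G.N₀} {s₁ : G.N₁}
    (h : G.r₀ s₀ = G.r₁ s₁) (hs : s₀ ≠ 0 ∨ s₁ ≠ 0) :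
    FinCoh G.cech ∧
      G.degree = Module.finrank K (sectionHom G s₀ s₁ h).coker₀
        + Module.finrank K (sectionHom G s₀ s₁ h).coker₁
        - Module.finrank K (sectionHom G s₀ s₁ h).coker₀₁ ∧
      (Module.finrank K (sectionHom G s₀ s₁ h).coker₀ : ℤ) ≤ G.degree ∧
      (Module.finrank K (sectionHom G s₀ s₁ h).coker₁ : ℤ) ≤ G.degree := by
  obtain ⟨hs₀, hs₁⟩ := section_ne_zero x y G h hs
  haveI := sectionHom_coker₀_finite x hx G h hs₀
  haveI := sectionHom_coker₁_finite y hy G h hs₁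
  have hi₀ := sectionHom_f₀_injective G h hs₀
  have hi₁ := sectionHom_f₁_injective G h hs₁
  obtain ⟨hfc, heu⟩ := (sectionHom G s₀ s₁ h).euler_eq x hi₀ hi₁ hO
  obtain ⟨hge₀, hge₁⟩ := (sectionHom G s₀ s₁ h).euler_ge x y hi₀ hi₁ hO
  refine ⟨hfc, ?_, ?_, ?_⟩
  · rw [GlueDatum.degree, heu]; ring
  · rw [GlueDatum.degree]; omega
  · rw [GlueDatum.degree]; omega

include x y hx hy in
/-- **D5.** A gluing datum with a nonzero global section has degree `≥ 0`. -/
theorem degree_nonneg_of_section (hO : FinCoh (GlueDatum.unit K R₀ R₁ R₀₁).cech)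
    (G : GlueDatum K R₀ R₁ R₀₁) {s₀ : G.N₀} {s₁ : G.N₁}
    (h : G.r₀ s₀ = G.r₁ s₁) (hs : s₀ ≠ 0 ∨ s₁ ≠ 0) : 0 ≤ G.degree := by
  have := (degree_of_section x y hx hy hO G h hs).2.2.1
  have h0 : (0 : ℤ) ≤ Module.finrank K (sectionHom G s₀ s₁ h).coker₀ := Int.natCast_nonneg _
  omega

include x y hx hy in
/-- **D5 (degree zero).** A nonzero global section of a gluing datum of degree `0` generates
`N₀`, `N₁` and `N₀₁`; in particular the datum is isomorphic to the unit datum. -/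
theorem sectionHom_bijective_of_degree_eq_zero (hO : FinCoh (GlueDatum.unit K R₀ R₁ R₀₁).cech)
    (G : GlueDatum K R₀ R₁ R₀₁) {s₀ : G.N₀} {s₁ : G.N₁}
    (h : G.r₀ s₀ = G.r₁ s₁) (hs : s₀ ≠ 0 ∨ s₁ ≠ 0) (hdeg : G.degree = 0) :
    Function.Bijective (sectionHom G s₀ s₁ h).f₀ ∧
      Function.Bijective (sectionHom G s₀ s₁ h).f₁ ∧
      Function.Bijective (sectionHom G s₀ s₁ h).f₀₁ := by
  obtain ⟨hs₀, hs₁⟩ := section_ne_zero x y G h hs
  haveI := sectionHom_coker₀_finite x hx G h hs₀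
  haveI := sectionHom_coker₁_finite y hy G h hs₁
  have hi₀ := sectionHom_f₀_injective G h hs₀
  have hi₁ := sectionHom_f₁_injective G h hs₁
  have heq : G.euler = (GlueDatum.unit K R₀ R₁ R₀₁).euler := by
    have := hdeg
    rw [GlueDatum.degree] at this
    omega
  obtain ⟨hsurj₀, hsurj₁⟩ :=
    (sectionHom G s₀ s₁ h).surjective_of_euler_eq x y hi₀ hi₁ hO heq
  refine ⟨⟨hi₀, hsurj₀⟩, ⟨hi₁, hsurj₁⟩, (sectionHom G s₀ s₁ h).f₀₁_injective x hi₀, ?_⟩
  -- surjectivity on the overlap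
  intro z
  have hz : z ∈ LinearMap.range (sectionHom G s₀ s₁ h).fMid ⊔
      LinearMap.range (G.r₀.restrictScalars K) := by
    rw [(sectionHom G s₀ s₁ h).sup_range_r₀ x]; trivial
  obtain ⟨_, ⟨w, rfl⟩, _, ⟨n, rfl⟩, rfl⟩ := Submodule.mem_sup.mp hz
  obtain ⟨b, rfl⟩ := hsurj₀ n
  refine ⟨w + (GlueDatum.unit K R₀ R₁ R₀₁).r₀ b, ?_⟩
  rw [map_add, (sectionHom G s₀ s₁ h).comm₀]
  rfl

include x y hx hy in
/-- **D5 (degree zero).** A gluing datum of degree `0` with a nonzero global section is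
isomorphic to the unit datum. -/
theorem isIso_unit_of_degree_eq_zero (hO : FinCoh (GlueDatum.unit K R₀ R₁ R₀₁).cech)
    (G : GlueDatum K R₀ R₁ R₀₁) {s₀ : G.N₀} {s₁ : G.N₁}
    (h : G.r₀ s₀ = G.r₁ s₁) (hs : s₀ ≠ 0 ∨ s₁ ≠ 0) (hdeg : G.degree = 0) :
    (GlueDatum.unit K R₀ R₁ R₀₁).IsIso G := by
  obtain ⟨h₀, h₁, h₀₁⟩ := sectionHom_bijective_of_degree_eq_zero x y hx hy hO G h hs hdeg
  exact (sectionHom G s₀ s₁ h).isIso_of_bijective h₀ h₁ h₀₁

end Field

end Fermat.Agent.S25.H565
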