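import Mathlib
import Fermat.Agent.S25.H10.DegreeDefs
import Fermat.Agent.S25.H250.DegreeD1
import Fermat.Agent.S25.H565.Section
import Fermat.Agent.S25.H565.ChartField

/-!
# S25 / DEGREE, leaves D3 and D5 (helper565): exact statements of `H10/DegreeSkel.lean`

Namespace `Fermat.Agent.S25.H565.D` (the names of the skeleton are kept inside it):

* D3: `euler_eq_of_injective`, `H1_surjective_of_finite_coker`, `injective_of_ne_zero`,
  `finite_coker_of_injective`, `bijective_of_degree_eq` (ISO LEMMA), `degree_le_of_ne_zero`;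
* D5: `degree_nonneg_of_section`, `ofSection_bijective`, `finrank_H0_le_one`.
-/

set_option autoImplicit false
set_option linter.style.haveILetI false
set_option linter.unusedSectionVars false

universe u

open scoped TensorProduct

namespace Fermat.Agent.S25.H565

open Fermat.Agent.S25 Fermat.Agent.S25.H10

section Convert

variable {A R₀ R₁ R₀₁ : Type u} [CommRing A] [CommRing R₀] [CommRing R₁]
    [CommRing R₀₁] [Algebra A R₀] [Algebra A R₁] [Algebra A R₀₁] [Algebra R₀ R₀₁]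
    [Algebra R₁ R₀₁] [IsScalarTower A R₀ R₀₁] [IsScalarTower A R₁ R₀₁]

/-- `H10.GDHom` and `H565.GlueHom` are the same structure. -/
def GlueHom.ofGDHom {G G' : GlueDatum A R₀ R₁ R₀₁} (f : GDHom G G') : GlueHom G G' :=
  ⟨f.f₀, f.f₁, f.f₀₁, f.comm₀, f.comm₁⟩

@[simp] theorem GlueHom.ofGDHom_f₀ {G G' : GlueDatum A R₀ R₁ R₀₁} (f : GDHom G G') :
    (GlueHom.ofGDHom f).f₀ = f.f₀ := rfl

@[simp] theorem GlueHom.ofGDHom_f₁ {G G' : GlueDatum A R₀ R₁ R₀₁} (f : GDHom G G') :
    (GlueHom.ofGDHom f).f₁ = f.f₁ := rfl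

@[simp] theorem GlueHom.ofGDHom_f₀₁ {G G' : GlueDatum A R₀ R₁ R₀₁} (f : GDHom G G') :
    (GlueHom.ofGDHom f).f₀₁ = f.f₀₁ := rfl

end Convert

section Coker

variable {K : Type*} [Field K] {R : Type*} [CommRing R] [Algebra K R]
  {N N' : Type*} [AddCommGroup N] [AddCommGroup N'] [Module R N] [Module R N']
  [Module K N] [Module K N'] [IsScalarTower K R N] [IsScalarTower K R N']

/-- The two forms of the cokernel of an `R`-linear map, as `K`-vector spaces. -/
def cokerEquiv (f : N →ₗ[R] N') :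
    (N' ⧸ LinearMap.range (f.restrictScalars K)) ≃ₗ[K] (N' ⧸ LinearMap.range f) :=
  Submodule.Quotient.restrictScalarsEquiv K (LinearMap.range f)

theorem finite_coker_iff (f : N →ₗ[R] N') :
    Module.Finite K (N' ⧸ LinearMap.range (f.restrictScalars K)) ↔
      Module.Finite K (N' ⧸ LinearMap.range f) :=
  Module.Finite.equiv_iff (cokerEquiv (K := K) f)

theorem finrank_coker_eq (f : N →ₗ[R] N') :
    Module.finrank K (N' ⧸ LinearMap.range (f.restrictScalars K)) =
      Module.finrank K (N' ⧸ LinearMap.range f) :=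
  LinearEquiv.finrank_eq (cokerEquiv (K := K) f)

end Coker

section Invertible

variable {R : Type*} [CommRing R] [IsDomain R] {N N' : Type*} [AddCommGroup N]
  [AddCommGroup N'] [Module R N] [Module R N'] [Module.Invertible R N]
  [Module.Invertible R N']

/-- A nonzero linear map between invertible modules over a domain is injective. -/
theorem injective_of_ne_zero_of_invertible (f : N →ₗ[R] N') (hf : f ≠ 0) :
    Function.Injective f := by
  rw [← LinearMap.ker_eq_bot, LinearMap.ker_eq_bot']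
  intro a ha
  by_contra ha0
  apply hf
  obtain ⟨r, hr, hrN⟩ := exists_ne_zero_smul_mem_span (R := R) a ha0
  ext b
  obtain ⟨c, hc⟩ := hrN b
  have h1 : r • f b = 0 := by rw [← map_smul, hc, map_smul, ha, smul_zero]
  rcases smul_eq_zero.mp h1 with h | h
  · exact absurd h hr
  · simpa using h

/-- An invertible module over a nontrivial ring has a nonzero element. -/
theorem exists_ne_zero_of_invertible (R : Type*) [CommRing R] [Nontrivial R] (N : Type*)
    [AddCommGroup N] [Module R N] [Module.Invertible R N] : ∃ a : N, a ≠ 0 := by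
  by_contra hcon
  push Not at hcon
  have h1 : (1 : R) • (0 : N) = (0 : R) • (0 : N) := by simp
  have h2 : ∀ n : N, (1 : R) • n = (0 : R) • n := fun n => by rw [hcon n]; simp
  exact one_ne_zero (FaithfulSMul.eq_of_smul_eq_smul (M := R) (α := N) h2)

end Invertible

section FiniteCoker

variable {K : Type*} [Field K] {R : Type*} [CommRing R] [Algebra K R] [IsDomain R]

/-- The cokernel of an injective map of invertible modules over a domain finite over `K[x]`
is finite-dimensional. -/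
theorem finite_coker_of_injective_of_invertible (x : R)
    (hfin : (Polynomial.aeval x : Polynomial K →ₐ[K] R).Finite)
    {N N' : Type*} [AddCommGroup N] [AddCommGroup N'] [Module R N] [Module R N']
    [Module K N] [Module K N'] [IsScalarTower K R N] [IsScalarTower K R N']
    [Module.Invertible R N] [Module.Invertible R N'] (f : N →ₗ[R] N')
    (hf : Function.Injective f) :
    Module.Finite K (N' ⧸ LinearMap.range (f.restrictScalars K)) := by
  obtain ⟨a, ha⟩ := exists_ne_zero_of_invertible R N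
  have hfa : f a ≠ 0 := fun h => ha (hf (by rw [h, map_zero]))
  haveI := finiteDimensional_quotient_span_singleton (K := K) x hfin (f a) hfa
  have hle : LinearMap.range ((LinearMap.toSpanSingleton R N' (f a)).restrictScalars K) ≤
      (LinearMap.range (f.restrictScalars K)).comap LinearMap.id := by
    rintro _ ⟨c, rfl⟩
    refine ⟨c • a, ?_⟩
    simp
  refine Module.Finite.of_surjective (Submodule.mapQ _ _ LinearMap.id hle) ?_
  intro q
  obtain ⟨n, rfl⟩ := Submodule.Quotient.mk_surjective _ q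
  exact ⟨Submodule.Quotient.mk n, rfl⟩

end FiniteCoker

section NeZero

variable {K R₀ R₁ R₀₁ : Type u} [Field K] [CommRing R₀] [CommRing R₁]
    [CommRing R₀₁] [Algebra K R₀] [Algebra K R₁] [Algebra K R₀₁] [Algebra R₀ R₀₁]
    [Algebra R₁ R₀₁] [IsScalarTower K R₀ R₀₁] [IsScalarTower K R₁ R₀₁]

/-- If `f` vanishes on a chart `Spec R` with `R₀₁ = R[1/x]`, it vanishes on the overlap. -/
theorem mid_eq_zero_of_away {R R' : Type u} [CommRing R] [CommRing R'] [Algebra R R']
    (x : R) [IsLocalization.Away x R']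
    {N N' L L' : Type u} [AddCommGroup N] [AddCommGroup N'] [AddCommGroup L] [AddCommGroup L']
    [Module R N] [Module R N'] [Module R' L] [Module R L] [IsScalarTower R R' L]
    [Module R' L'] [Module R L'] [IsScalarTower R R' L']
    (f : N →ₗ[R] N') (g : L →ₗ[R'] L') (r : N →ₗ[R] L) (r' : N' →ₗ[R] L')
    (hr : IsBaseChange R' r) (hr' : IsBaseChange R' r') (hcomm : ∀ n, g (r n) = r' (f n))
    (hf : f = 0) : g = 0 := by
  have hloc : IsLocalizedModule (Submonoid.powers x) r :=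
    (isLocalizedModule_iff_isBaseChange (Submonoid.powers x) R' r).2 hr
  have hloc' : IsLocalizedModule (Submonoid.powers x) r' :=
    (isLocalizedModule_iff_isBaseChange (Submonoid.powers x) R' r').2 hr'
  ext z
  obtain ⟨⟨n, s⟩, hs⟩ := IsLocalizedModule.surj (Submonoid.powers x) r z
  have hs' : (s : R) • z = r n := hs
  have h1 : (s : R) • g z = 0 := by
    rw [← algebraMap_smul R' (s : R) (g z), ← map_smul, algebraMap_smul, hs', hcomm, hf,
      LinearMap.zero_apply, map_zero]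
  have h2 : s • g z = s • (0 : L') := by rw [smul_zero]; exact h1
  simpa using (IsLocalizedModule.smul_inj r' s (g z) 0).1 h2

variable [IsDomain R₀] [IsDomain R₁] [Nontrivial R₀₁]
  (x : R₀) (y : R₁) [IsLocalization.Away x R₀₁] [IsLocalization.Away y R₀₁]

include x y in
/-- A morphism of gluing data which is nonzero on one chart is nonzero on both. -/
theorem GlueHom.ne_zero_both {G G' : GlueDatum K R₀ R₁ R₀₁} (φ : GlueHom G G')
    (h : φ.f₀ ≠ 0 ∨ φ.f₁ ≠ 0) : φ.f₀ ≠ 0 ∧ φ.f₁ ≠ 0 := by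
  have h01 : φ.f₀ = 0 → φ.f₁ = 0 := by
    intro h0
    have hmid : φ.f₀₁ = 0 :=
      mid_eq_zero_of_away x φ.f₀ φ.f₀₁ G.r₀ G'.r₀ G.isBaseChange₀ G'.isBaseChange₀ φ.comm₀ h0
    ext b
    apply r₁_injective y G'
    rw [← φ.comm₁, hmid]
    simp
  have h10 : φ.f₁ = 0 → φ.f₀ = 0 := by
    intro h1
    have hmid : φ.f₀₁ = 0 :=
      mid_eq_zero_of_away y φ.f₁ φ.f₀₁ G.r₁ G'.r₁ G.isBaseChange₁ G'.isBaseChange₁ φ.comm₁ h1
    ext a
    apply r₀_injective x G'
    rw [← φ.comm₀, hmid]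
    simp
  constructor
  · intro h0
    rcases h with h | h
    · exact h h0
    · exact h (h01 h0)
  · intro h1
    rcases h with h | h
    · exact h (h10 h1)
    · exact h h1

include x y in
/-- A morphism of gluing data which is nonzero on one chart is injective on both. -/
theorem GlueHom.injective_of_ne_zero {G G' : GlueDatum K R₀ R₁ R₀₁} (φ : GlueHom G G')
    (h : φ.f₀ ≠ 0 ∨ φ.f₁ ≠ 0) : Function.Injective φ.f₀ ∧ Function.Injective φ.f₁ := by
  obtain ⟨h0, h1⟩ := φ.ne_zero_both x y h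
  haveI := G.invertible₀
  haveI := G.invertible₁
  haveI := G'.invertible₀
  haveI := G'.invertible₁
  exact ⟨injective_of_ne_zero_of_invertible φ.f₀ h0, injective_of_ne_zero_of_invertible φ.f₁ h1⟩

include x in
/-- Surjectivity on a chart implies surjectivity on the overlap. -/
theorem GlueHom.f₀₁_surjective {G G' : GlueDatum K R₀ R₁ R₀₁} (φ : GlueHom G G')
    (hs : Function.Surjective φ.f₀) : Function.Surjective φ.f₀₁ := by
  have hloc' : IsLocalizedModule (Submonoid.powers x) G'.r₀ :=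
    (isLocalizedModule_iff_isBaseChange (Submonoid.powers x) R₀₁ G'.r₀).2 G'.isBaseChange₀
  obtain ⟨u, hu⟩ := IsLocalization.Away.algebraMap_isUnit (S := R₀₁) x
  intro z'
  obtain ⟨⟨n', s⟩, hs'⟩ := IsLocalizedModule.surj (Submonoid.powers x) G'.r₀ z'
  obtain ⟨k, hk⟩ := s.2
  have hs'' : (x ^ k) • z' = G'.r₀ n' := by
    have : (s : R₀) • z' = G'.r₀ n' := hs'
    rwa [← hk] at this
  obtain ⟨n, rfl⟩ := hs n'
  refine ⟨((u⁻¹ : R₀₁ˣ) : R₀₁) ^ k • G.r₀ n, ?_⟩
  rw [map_smul, φ.comm₀, ← hs'', ← algebraMap_smul R₀₁ (x ^ k) z', map_pow, ← hu, smul_smul,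
    ← mul_pow, Units.inv_mul, one_pow, one_smul]

end NeZero

namespace D

noncomputable section

variable {k : Type u} [Field k] {B₀ B₁ B₀₁ : Type u} [CommRing B₀] [CommRing B₁] [CommRing B₀₁]
  [Algebra k B₀] [Algebra k B₁] [Algebra k B₀₁] [Algebra B₀ B₀₁] [Algebra B₁ B₀₁]
  [IsScalarTower k B₀ B₀₁] [IsScalarTower k B₁ B₀₁]
  {x : B₀} {y : B₁} {e : B₁ →ₐ[k] k}

/-- D1 in the form used here. -/
theorem finCoh (hC : IsCurveChart k B₀ B₁ B₀₁ x y e) {K : Type u} [Field K]
    [Algebra k K] (G : CurveGD k B₀ B₁ B₀₁ K) : FinCoh G.cech :=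
  ⟨H250.finite_H0 hC G, H250.finite_H1_field hC G⟩

/-! ### D3: modifications -/

/-- D3-a. `χ` of a modification. -/
theorem euler_eq_of_injective (hC : IsCurveChart k B₀ B₁ B₀₁ x y e) {K : Type u} [Field K]
    [Algebra k K] {G G' : CurveGD k B₀ B₁ B₀₁ K} (f : GDHom G G') (hf : f.Injective)
    (h₀ : Module.Finite K (G'.N₀ ⧸ LinearMap.range f.f₀))
    (h₁ : Module.Finite K (G'.N₁ ⧸ LinearMap.range f.f₁)) :
    G'.euler = G.euler + Module.finrank K (G'.N₀ ⧸ LinearMap.range f.f₀)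
      + Module.finrank K (G'.N₁ ⧸ LinearMap.range f.f₁)
      - Module.finrank K (G'.N₀₁ ⧸ LinearMap.range f.f₀₁) := by
  haveI := chart_away₀ hC K
  haveI : FiniteDimensional K (GlueHom.ofGDHom f).coker₀ := (finite_coker_iff f.f₀).2 h₀
  haveI : FiniteDimensional K (GlueHom.ofGDHom f).coker₁ := (finite_coker_iff f.f₁).2 h₁
  have h := ((GlueHom.ofGDHom f).euler_eq ((1 : K) ⊗ₜ[k] x) hf.1 hf.2 (finCoh hC G)).2
  rw [h]
  have e₀ : Module.finrank K (GlueHom.ofGDHom f).coker₀ =
      Module.finrank K (G'.N₀ ⧸ LinearMap.range f.f₀) := finrank_coker_eq f.f₀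
  have e₁ : Module.finrank K (GlueHom.ofGDHom f).coker₁ =
      Module.finrank K (G'.N₁ ⧸ LinearMap.range f.f₁) := finrank_coker_eq f.f₁
  have e₀₁ : Module.finrank K (GlueHom.ofGDHom f).coker₀₁ =
      Module.finrank K (G'.N₀₁ ⧸ LinearMap.range f.f₀₁) := finrank_coker_eq f.f₀₁
  rw [e₀, e₁, e₀₁]

/-- D3-b. `Ȟ¹(G) → Ȟ¹(G')` is onto as soon as one chart cokernel is finite-dimensional. -/
theorem H1_surjective_of_finite_coker (hC : IsCurveChart k B₀ B₁ B₀₁ x y e) {K : Type u}
    [Field K] [Algebra k K] {G G' : CurveGD k B₀ B₁ B₀₁ K} (f : GDHom G G')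
    (h₀ : Module.Finite K (G'.N₀ ⧸ LinearMap.range f.f₀)) (z' : G'.N₀₁) :
    ∃ z : G.N₀₁, z' - f.f₀₁ z ∈ LinearMap.range G'.cech := by
  haveI := chart_away₀ hC K
  haveI : FiniteDimensional K (GlueHom.ofGDHom f).coker₀ := (finite_coker_iff f.f₀).2 h₀
  have hz : z' ∈ LinearMap.range (GlueHom.ofGDHom f).fMid ⊔
      LinearMap.range (G'.r₀.restrictScalars K) := by
    rw [(GlueHom.ofGDHom f).sup_range_r₀ ((1 : K) ⊗ₜ[k] x)]; trivial
  obtain ⟨_, ⟨z, rfl⟩, _, ⟨n, rfl⟩, rfl⟩ := Submodule.mem_sup.mp hz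
  refine ⟨z, (n, 0), ?_⟩
  rw [GlueHom.cech_apply]
  simp

/-- D3-c. A morphism which is nonzero on one chart is injective on both. -/
theorem injective_of_ne_zero [IsAlgClosed k] (hC : IsCurveChart k B₀ B₁ B₀₁ x y e)
    {K : Type u} [Field K] [Algebra k K] {G G' : CurveGD k B₀ B₁ B₀₁ K} (f : GDHom G G')
    (hf : f.f₀ ≠ 0 ∨ f.f₁ ≠ 0) : f.Injective := by
  haveI := chart_away₀ hC K
  haveI := chart_away₁ hC K
  haveI := chart_isDomain₀ hC K
  haveI := chart_isDomain₁ hC K
  haveI := chart_nontrivial₀₁ hC K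
  exact (GlueHom.ofGDHom f).injective_of_ne_zero ((1 : K) ⊗ₜ[k] x) ((1 : K) ⊗ₜ[k] y) hf

theorem finite_coker_of_injective [IsAlgClosed k] (hC : IsCurveChart k B₀ B₁ B₀₁ x y e)
    {K : Type u} [Field K] [Algebra k K] {G G' : CurveGD k B₀ B₁ B₀₁ K} (f : GDHom G G')
    (hf : f.Injective) :
    Module.Finite K (G'.N₀ ⧸ LinearMap.range f.f₀) ∧
      Module.Finite K (G'.N₁ ⧸ LinearMap.range f.f₁) := by
  haveI := chart_isDomain₀ hC K
  haveI := chart_isDomain₁ hC K
  haveI := G.invertible₀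
  haveI := G.invertible₁
  haveI := G'.invertible₀
  haveI := G'.invertible₁
  exact ⟨(finite_coker_iff f.f₀).1
      (finite_coker_of_injective_of_invertible _ (chart_finite₀ hC K) f.f₀ hf.1),
    (finite_coker_iff f.f₁).1
      (finite_coker_of_injective_of_invertible _ (chart_finite₁ hC K) f.f₁ hf.2)⟩

/-- D3-d. THE ISO LEMMA: a nonzero morphism between data of the same degree is bijective. -/
theorem bijective_of_degree_eq [IsAlgClosed k] (hC : IsCurveChart k B₀ B₁ B₀₁ x y e)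
    {K : Type u} [Field K] [Algebra k K] {G G' : CurveGD k B₀ B₁ B₀₁ K} (f : GDHom G G')
    (hf : f.f₀ ≠ 0 ∨ f.f₁ ≠ 0) (hdeg : G.degree = G'.degree) : f.Bijective := by
  haveI := chart_away₀ hC K
  haveI := chart_away₁ hC K
  haveI := chart_isDomain₀ hC K
  haveI := chart_isDomain₁ hC K
  haveI := chart_nontrivial₀₁ hC K
  have hinj := injective_of_ne_zero hC f hf
  obtain ⟨h₀, h₁⟩ := finite_coker_of_injective hC f hinj
  haveI : FiniteDimensional K (GlueHom.ofGDHom f).coker₀ := (finite_coker_iff f.f₀).2 h₀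
  haveI : FiniteDimensional K (GlueHom.ofGDHom f).coker₁ := (finite_coker_iff f.f₁).2 h₁
  have heq : G'.euler = G.euler := by
    have := hdeg
    simp only [GlueDatum.degree] at this
    omega
  obtain ⟨hs₀, hs₁⟩ := (GlueHom.ofGDHom f).surjective_of_euler_eq ((1 : K) ⊗ₜ[k] x)
    ((1 : K) ⊗ₜ[k] y) hinj.1 hinj.2 (finCoh hC G) heq
  exact ⟨⟨hinj.1, hs₀⟩, ⟨hinj.2, hs₁⟩,
    (GlueHom.ofGDHom f).f₀₁_injective ((1 : K) ⊗ₜ[k] x) hinj.1,
    (GlueHom.ofGDHom f).f₀₁_surjective ((1 : K) ⊗ₜ[k] x) hs₀⟩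

/-- D3-e. A nonzero morphism can only raise the degree. -/
theorem degree_le_of_ne_zero [IsAlgClosed k] (hC : IsCurveChart k B₀ B₁ B₀₁ x y e)
    {K : Type u} [Field K] [Algebra k K] {G G' : CurveGD k B₀ B₁ B₀₁ K} (f : GDHom G G')
    (hf : f.f₀ ≠ 0 ∨ f.f₁ ≠ 0) : G.degree ≤ G'.degree := by
  haveI := chart_away₀ hC K
  haveI := chart_away₁ hC K
  have hinj := injective_of_ne_zero hC f hf
  obtain ⟨h₀, h₁⟩ := finite_coker_of_injective hC f hinj
  haveI : FiniteDimensional K (GlueHom.ofGDHom f).coker₀ := (finite_coker_iff f.f₀).2 h₀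
  haveI : FiniteDimensional K (GlueHom.ofGDHom f).coker₁ := (finite_coker_iff f.f₁).2 h₁
  have h := ((GlueHom.ofGDHom f).euler_ge ((1 : K) ⊗ₜ[k] x) ((1 : K) ⊗ₜ[k] y) hinj.1 hinj.2
    (finCoh hC G)).1
  simp only [GlueDatum.degree]
  have h0 : (0 : ℤ) ≤ Module.finrank K (GlueHom.ofGDHom f).coker₀ := Int.natCast_nonneg _
  omega

/-! ### D5: sections -/

theorem degree_unit (K : Type u) [Field K] [Algebra k K] :
    (GlueDatum.unit K (K ⊗[k] B₀) (K ⊗[k] B₁) (K ⊗[k] B₀₁)).degree = 0 := by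
  simp [GlueDatum.degree]

theorem ofSection_ne_zero {K : Type u} [Field K] [Algebra k K] (G : CurveGD k B₀ B₁ B₀₁ K)
    (s : G.H0) (hs : s ≠ 0) :
    (GDHom.ofSection G s).f₀ ≠ 0 ∨ (GDHom.ofSection G s).f₁ ≠ 0 := by
  by_contra hcon
  push Not at hcon
  obtain ⟨h0, h1⟩ := hcon
  apply hs
  apply Subtype.ext
  have e0 : s.1.1 = 0 := by
    have h2 : (GDHom.ofSection G s).f₀ (1 : K ⊗[k] B₀) = (1 : K ⊗[k] B₀) • s.1.1 := rfl
    rw [h0, one_smul] at h2
    exact h2.symm
  have e1 : s.1.2 = 0 := by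
    have h2 : (GDHom.ofSection G s).f₁ (1 : K ⊗[k] B₁) = (1 : K ⊗[k] B₁) • s.1.2 := rfl
    rw [h1, one_smul] at h2
    exact h2.symm
  exact Prod.ext e0 e1

/-- D5-a. A datum with a nonzero section has degree `≥ 0`. -/
theorem degree_nonneg_of_section [IsAlgClosed k] (hC : IsCurveChart k B₀ B₁ B₀₁ x y e)
    {K : Type u} [Field K] [Algebra k K] (G : CurveGD k B₀ B₁ B₀₁ K) (s : G.H0)
    (hs : s ≠ 0) : 0 ≤ G.degree := by
  have h := degree_le_of_ne_zero hC (GDHom.ofSection G s) (ofSection_ne_zero G s hs)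
  rwa [degree_unit] at h

/-- D5-b. A nonzero section of a degree-0 datum trivialises it. -/
theorem ofSection_bijective [IsAlgClosed k] (hC : IsCurveChart k B₀ B₁ B₀₁ x y e)
    {K : Type u} [Field K] [Algebra k K] (G : CurveGD k B₀ B₁ B₀₁ K) (hG : G.degree = 0)
    (s : G.H0) (hs : s ≠ 0) : (GDHom.ofSection G s).Bijective :=
  bijective_of_degree_eq hC (GDHom.ofSection G s) (ofSection_ne_zero G s hs)
    (by rw [degree_unit, hG])

end

end D

end Fermat.Agent.S25.H565
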