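import Mathlib
import Fermat.Agent.S25.H11.ACDefs
import Fermat.Agent.S25.H250.TwistEuler
import Fermat.Agent.S25.H565.DegreeD3

/-!
# S25 / ALGCHARTS, input DEG2 (helper565): `degree_eq_of_section`

Exact statement of `origin/helper11:coord/S25-ALGCHARTS-skeleton.lean`: a section `s` of
`G(n E₀)` which does not vanish on `E₀ = {y = 0}` has `dim N₀ / (s₀) = deg G + n d`.

Route: `s` is a morphism `unit → G(n E₀)`; `χ(G(n E₀)) = χ(unit) + dim Q₀ + dim Q₁ - dim Q₀₁`
(D3-a), `χ(G(n E₀)) = χ(G) + n d` (D4), and `Q₁ → Q₀₁` is bijective because `y` is onto (hence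
bijective) on the finite-dimensional `Q₁ = N₁ / (s₁)`.
-/

set_option autoImplicit false
set_option linter.style.haveILetI false
set_option linter.unusedSectionVars false

universe u

open scoped TensorProduct

namespace Fermat.Agent.S25.H565

open Fermat.Agent.S25 Fermat.Agent.S25.H10 Fermat.Agent.S25.H11

section LinAlg2

variable {K : Type u} [Field K]

/-- If `y` is onto on the finite-dimensional cokernel `N'/f N`, then the cokernel of the
localization `g = f[1/y]` is isomorphic to it. -/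
theorem finrank_coker_eq_of_away {R R' : Type u} [CommRing R] [CommRing R'] [Algebra K R]
    [Algebra K R'] [Algebra R R'] [IsScalarTower K R R'] (y : R) [IsLocalization.Away y R']
    {N N' L L' : Type u} [AddCommGroup N] [AddCommGroup N'] [AddCommGroup L] [AddCommGroup L']
    [Module R N] [Module R N'] [Module K N] [Module K N'] [IsScalarTower K R N]
    [IsScalarTower K R N']
    [Module R' L] [Module R L] [IsScalarTower R R' L] [Module K L] [IsScalarTower K R' L]
    [IsScalarTower K R L]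
    [Module R' L'] [Module R L'] [IsScalarTower R R' L'] [Module K L'] [IsScalarTower K R' L']
    [IsScalarTower K R L']
    (f : N →ₗ[R] N') (g : L →ₗ[R'] L') (r : N →ₗ[R] L) (r' : N' →ₗ[R] L')
    (hr : IsBaseChange R' r) (hr' : IsBaseChange R' r') (hcomm : ∀ n, g (r n) = r' (f n))
    (hinj : Function.Injective r')
    [FiniteDimensional K (N' ⧸ LinearMap.range (f.restrictScalars K))]
    (hy : ∀ c : N', ∃ c' : N', c - y • c' ∈ LinearMap.range f) :
    FiniteDimensional K (L' ⧸ LinearMap.range (g.restrictScalars K)) ∧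
      Module.finrank K (L' ⧸ LinearMap.range (g.restrictScalars K)) =
        Module.finrank K (N' ⧸ LinearMap.range (f.restrictScalars K)) := by
  have hloc : IsLocalizedModule (Submonoid.powers y) r :=
    (isLocalizedModule_iff_isBaseChange (Submonoid.powers y) R' r).2 hr
  have hsup := sup_range_eq_top_of_away (K := K) y f g r r' hr' hcomm
  have hWg : ∀ w ∈ LinearMap.range (f.restrictScalars K),
      (r'.restrictScalars K) w ∈ LinearMap.range (g.restrictScalars K) := by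
    rintro _ ⟨n, rfl⟩
    exact ⟨r n, hcomm n⟩
  obtain ⟨hfin, hle⟩ := finrank_coker_le (LinearMap.range (f.restrictScalars K))
    (g.restrictScalars K) (r'.restrictScalars K) hWg hsup
  refine ⟨hfin, le_antisymm hle ?_⟩
  -- `y` acts on `N'/W`
  have hyW : LinearMap.range (f.restrictScalars K) ≤
      (LinearMap.range (f.restrictScalars K)).comap (smulEnd K y N') := by
    rintro _ ⟨n, rfl⟩
    exact ⟨y • n, by simp⟩
  have hTsurj : Function.Surjective
      (Submodule.mapQ _ _ (smulEnd K y N') hyW) := by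
    intro q
    obtain ⟨c, rfl⟩ := Submodule.Quotient.mk_surjective _ q
    obtain ⟨c', n, hn⟩ := hy c
    refine ⟨Submodule.Quotient.mk c', ?_⟩
    rw [Submodule.mapQ_apply, smulEnd_apply]
    symm
    rw [Submodule.Quotient.eq]
    exact ⟨n, hn⟩
  have hTinj : Function.Injective (Submodule.mapQ _ _ (smulEnd K y N') hyW) :=
    LinearMap.injective_iff_surjective.2 hTsurj
  have hTpow : ∀ m : ℕ, ∀ c : N', y ^ m • c ∈ LinearMap.range (f.restrictScalars K) →
      c ∈ LinearMap.range (f.restrictScalars K) := by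
    intro m
    induction m with
    | zero => intro c hc; simpa using hc
    | succ m ih =>
      intro c hc
      apply ih
      have h1 : Submodule.mapQ _ _ (smulEnd K y N') hyW
          (Submodule.Quotient.mk (y ^ m • c)) = 0 := by
        rw [Submodule.mapQ_apply, smulEnd_apply, Submodule.Quotient.mk_eq_zero, smul_smul,
          ← pow_succ']
        exact hc
      have h2 := hTinj (h1.trans (map_zero _).symm)
      exact (Submodule.Quotient.mk_eq_zero _).1 h2
  have hψ : Function.Injective (Submodule.mapQ (LinearMap.range (f.restrictScalars K))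
      (LinearMap.range (g.restrictScalars K)) (r'.restrictScalars K) hWg) := by
    rw [← LinearMap.ker_eq_bot, LinearMap.ker_eq_bot']
    intro q hq
    obtain ⟨c, rfl⟩ := Submodule.Quotient.mk_surjective _ q
    rw [Submodule.mapQ_apply, Submodule.Quotient.mk_eq_zero] at hq
    obtain ⟨z, hz⟩ := hq
    have hz' : g z = r' c := hz
    obtain ⟨⟨a, s⟩, hs⟩ := IsLocalizedModule.surj (Submonoid.powers y) r z
    obtain ⟨m, hm⟩ := s.2
    have hs' : (y ^ m) • z = r a := by
      have : (s : R) • z = r a := hs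
      rwa [← hm] at this
    have h2 : r' (y ^ m • c) = r' (f a) := by
      rw [map_smul, ← hz', ← hcomm, ← hs', ← algebraMap_smul R' (y ^ m) z, map_smul,
        algebraMap_smul]
    have h3 : y ^ m • c = f a := hinj h2
    rw [Submodule.Quotient.mk_eq_zero]
    exact hTpow m c ⟨a, h3.symm⟩
  exact LinearMap.finrank_le_finrank_of_injective hψ

end LinAlg2

section DEG2

variable {k : Type u} [Field k]
  {B₀ B₁ B₀₁ : Type u} [CommRing B₀] [CommRing B₁] [CommRing B₀₁]
  [Algebra k B₀] [Algebra k B₁] [Algebra k B₀₁] [Algebra B₀ B₀₁] [Algebra B₁ B₀₁]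
  [IsScalarTower k B₀ B₀₁] [IsScalarTower k B₁ B₀₁]
  {x : B₀} {y : B₁} {e : B₁ →ₐ[k] k}

/-- `sec x n G` is `Ȟ⁰` of the twist `G(n E₀)`. -/
theorem mem_sec_iff_mem_twistE_H0 (hC : IsCurveChart k B₀ B₁ B₀₁ x y e) {A : Type u}
    [CommRing A] [Algebra k A] (G : CurveGD k B₀ B₁ B₀₁ A) (n : ℕ) (s : G.N₀ × G.N₁) :
    s ∈ sec x n G ↔ s ∈ (twistE x y hC.mul_eq_one G (n : ℤ)).H0 := by
  rw [mem_sec]
  obtain ⟨a, b⟩ := s
  have h : (gdTwist G (xUnit x y hC.mul_eq_one A ^ (n : ℤ))).cech (a, b) =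
      (G.r₀ a - xElt k B₀₁ A x ^ n • G.r₁ b : G.N₀₁) := by
    rw [gdTwist_cech_apply, zpow_natCast, Units.val_pow_eq_pow_val]
    rfl
  constructor
  · intro hs
    show (gdTwist G (xUnit x y hC.mul_eq_one A ^ (n : ℤ))).cech (a, b) = 0
    exact h.trans (sub_eq_zero.2 hs)
  · intro hs
    have hs' : (gdTwist G (xUnit x y hC.mul_eq_one A ^ (n : ℤ))).cech (a, b) = 0 := hs
    exact sub_eq_zero.1 (h.symm.trans hs')

/-- An element generating `N₁` modulo `y` is nonzero (over a field). -/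
theorem ne_zero_of_genModY (hC : IsCurveChart k B₀ B₁ B₀₁ x y e) {K : Type u} [Field K]
    [Algebra k K] (G : CurveGD k B₀ B₁ B₀₁ K) (b : G.N₁) (hgen : GenModY y G b) : b ≠ 0 := by
  intro hb
  haveI := G.invertible₁
  obtain ⟨hfin, hrank⟩ := H250.finrank_tensor_quotient_y hC K
  have h1 := H250.finrank_quotient_lsmul (K := K) ((1 : K) ⊗ₜ[k] y : K ⊗[k] B₁) G.N₁
  have h2 : LinearMap.range (Algebra.lsmul K K G.N₁ ((1 : K) ⊗ₜ[k] y : K ⊗[k] B₁)) = ⊤ := by
    rw [H250.range_lsmul_eq, eq_top_iff]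
    intro c _
    obtain ⟨r, hr⟩ := hgen c
    rw [hb, smul_zero, sub_zero] at hr
    exact hr
  have h3 : Module.finrank K
      (G.N₁ ⧸ LinearMap.range (Algebra.lsmul K K G.N₁ ((1 : K) ⊗ₜ[k] y : K ⊗[k] B₁))) = 0 := by
    rw [h2]
    haveI : Subsingleton (G.N₁ ⧸ (⊤ : Submodule K G.N₁)) :=
      Submodule.Quotient.subsingleton_iff.2 rfl
    exact Module.finrank_zero_of_subsingleton
  have h4 := H250.chartDeg_pos hC
  omega

end DEG2

section DEG2Main

variable {k : Type u} [Field k] [IsAlgClosed k]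
  {B₀ B₁ B₀₁ : Type u} [CommRing B₀] [CommRing B₁] [CommRing B₀₁]
  [Algebra k B₀] [Algebra k B₁] [Algebra k B₀₁] [Algebra B₀ B₀₁] [Algebra B₁ B₀₁]
  [IsScalarTower k B₀ B₀₁] [IsScalarTower k B₁ B₀₁]
  {x : B₀} {y : B₁} {e : B₁ →ₐ[k] k}

variable {K : Type u} [Field K] [Algebra k K]

/-- DEG2 (degree = degree of the divisor of a section): a section `s` of `G(nE₀)` which does
not vanish on `E₀` has `dim N₀ / (s₀) = deg G + n d`. -/
theorem degree_eq_of_section (hC : IsCurveChart k B₀ B₁ B₀₁ x y e)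
    (G : CurveGD k B₀ B₁ B₀₁ K) (n : ℕ) (s : G.N₀ × G.N₁) (hs : s ∈ sec x n G)
    (hgen : GenModY y G s.2) :
    Module.Finite K (G.N₀ ⧸ Submodule.span (K ⊗[k] B₀) {s.1}) ∧
      G.degree = (Module.finrank K (G.N₀ ⧸ Submodule.span (K ⊗[k] B₀) {s.1}) : ℤ) -
        (n * Module.finrank k (B₁ ⧸ Ideal.span {y}) : ℕ) := by
  haveI := chart_away₀ hC K
  haveI := chart_away₁ hC K
  haveI := chart_isDomain₀ hC K
  haveI := chart_isDomain₁ hC K
  haveI := chart_nontrivial₀₁ hC K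
  have hs' : s ∈ (twistE x y hC.mul_eq_one G (n : ℤ)).H0 :=
    (mem_sec_iff_mem_twistE_H0 hC G n s).1 hs
  have hs2 : s.2 ≠ 0 := ne_zero_of_genModY hC G s.2 hgen
  have ht : (⟨s, hs'⟩ : (twistE x y hC.mul_eq_one G (n : ℤ)).H0) ≠ 0 := by
    intro h
    apply hs2
    have h1 := congrArg Subtype.val h
    exact congrArg Prod.snd h1
  have hf := D.ofSection_ne_zero (twistE x y hC.mul_eq_one G (n : ℤ)) ⟨s, hs'⟩ ht
  have hinj := D.injective_of_ne_zero hC
    (GDHom.ofSection (twistE x y hC.mul_eq_one G (n : ℤ)) ⟨s, hs'⟩) hf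
  obtain ⟨h₀, h₁⟩ := D.finite_coker_of_injective hC
    (GDHom.ofSection (twistE x y hC.mul_eq_one G (n : ℤ)) ⟨s, hs'⟩) hinj
  have heul := D.euler_eq_of_injective hC
    (GDHom.ofSection (twistE x y hC.mul_eq_one G (n : ℤ)) ⟨s, hs'⟩) hinj h₀ h₁
  have htw := H250.euler_twistE hC G (n : ℤ)
  -- `Q₁ ≅ Q₀₁`
  have hy : ∀ c : (twistE x y hC.mul_eq_one G (n : ℤ)).N₁,
      ∃ c' : (twistE x y hC.mul_eq_one G (n : ℤ)).N₁,
        c - ((1 : K) ⊗ₜ[k] y : K ⊗[k] B₁) • c' ∈ LinearMap.range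
          (GDHom.ofSection (twistE x y hC.mul_eq_one G (n : ℤ)) ⟨s, hs'⟩).f₁ := by
    intro (c : G.N₁)
    obtain ⟨r, hr⟩ := hgen c
    rw [Submodule.ideal_span_singleton_smul, Submodule.mem_smul_pointwise_iff_exists] at hr
    obtain ⟨c', -, hc'⟩ := hr
    refine ⟨c', r, ?_⟩
    have h2 : ((1 : K) ⊗ₜ[k] y : K ⊗[k] B₁) • c' = c - r • s.2 := hc'
    show r • s.2 = c - ((1 : K) ⊗ₜ[k] y : K ⊗[k] B₁) • c'
    rw [h2]
    abel
  haveI : FiniteDimensional K ((twistE x y hC.mul_eq_one G (n : ℤ)).N₁ ⧸ LinearMap.range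
      ((GDHom.ofSection (twistE x y hC.mul_eq_one G (n : ℤ)) ⟨s, hs'⟩).f₁.restrictScalars K)) :=
    (finite_coker_iff _).2 h₁
  have hQ := (finrank_coker_eq_of_away (K := K) ((1 : K) ⊗ₜ[k] y : K ⊗[k] B₁)
    (GDHom.ofSection (twistE x y hC.mul_eq_one G (n : ℤ)) ⟨s, hs'⟩).f₁
    (GDHom.ofSection (twistE x y hC.mul_eq_one G (n : ℤ)) ⟨s, hs'⟩).f₀₁
    (GlueDatum.unit K (K ⊗[k] B₀) (K ⊗[k] B₁) (K ⊗[k] B₀₁)).r₁
    (twistE x y hC.mul_eq_one G (n : ℤ)).r₁
    (GlueDatum.unit K (K ⊗[k] B₀) (K ⊗[k] B₁) (K ⊗[k] B₀₁)).isBaseChange₁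
    (twistE x y hC.mul_eq_one G (n : ℤ)).isBaseChange₁
    (GDHom.ofSection (twistE x y hC.mul_eq_one G (n : ℤ)) ⟨s, hs'⟩).comm₁
    (r₁_injective ((1 : K) ⊗ₜ[k] y : K ⊗[k] B₁) (twistE x y hC.mul_eq_one G (n : ℤ)))
    hy).2
  have e₁ := finrank_coker_eq (K := K)
    (GDHom.ofSection (twistE x y hC.mul_eq_one G (n : ℤ)) ⟨s, hs'⟩).f₁
  have e₀₁ := finrank_coker_eq (K := K)
    (GDHom.ofSection (twistE x y hC.mul_eq_one G (n : ℤ)) ⟨s, hs'⟩).f₀₁
  rw [e₀₁, e₁] at hQ
  rw [hQ, htw] at heul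
  have e0 : LinearMap.range (GDHom.ofSection (twistE x y hC.mul_eq_one G (n : ℤ)) ⟨s, hs'⟩).f₀ =
      Submodule.span (K ⊗[k] B₀) {s.1} := LinearMap.range_toSpanSingleton _
  have hd : chartDeg k y = Module.finrank k (B₁ ⧸ Ideal.span {y}) := rfl
  constructor
  · have h := h₀
    rw [e0] at h
    exact h
  · rw [e0, hd] at heul
    generalize Module.finrank K ((twistE x y hC.mul_eq_one G (n : ℤ)).N₁ ⧸ LinearMap.range
      (GDHom.ofSection (twistE x y hC.mul_eq_one G (n : ℤ)) ⟨s, hs'⟩).f₁) = q at heul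
    have heul' : G.euler + (n : ℤ) * (Module.finrank k (B₁ ⧸ Ideal.span {y}) : ℤ) =
        (GlueDatum.unit K (K ⊗[k] B₀) (K ⊗[k] B₁) (K ⊗[k] B₀₁)).euler +
          (Module.finrank K (G.N₀ ⧸ Submodule.span (K ⊗[k] B₀) {s.1}) : ℤ) + (q : ℤ) - (q : ℤ) :=
      heul
    simp only [GlueDatum.degree]
    push_cast
    linarith

end DEG2Main

end Fermat.Agent.S25.H565
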